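import Fermat.Agent.H52.SS.NewPart
import Fermat.Agent.H37.ESAdic.Glue
import Fermat.Agent.H63.LR.Maps
import Fermat.Agent.H79.CohFaithful
import Fermat.Agent.H55.SS.KTGlue
import Fermat.Agent.H55.SS.KTContract
import Fermat.Agent.H11.SS2.Contract
import Fermat.Prelude.Def_CuspForm_Newforms

/-!
# P-SS (S35) / P-SS2 (S36), `J`-side and lattice side: definitions and exact statements
(sub-lead helper52)

Design (findings #449, accepted in #471): the eigenlattice is built INSIDE the new part of
`J₀(M)`; the newform enters only over `ℂ`, on the new part of the parabolic lattice.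

## Definitions

* `castJ`, `castH`, `castF` : transport of divisor classes / homomorphisms / functions along an
  equality of levels (`subst` the equality to get rid of them);
* `IsNewClass M x` : `x ∈ J₀(M)` is killed by both degeneracy push-forwards `α_*`, `β_*` to
  level `N`, for EVERY factorisation `M = N q`, `q` prime;
* `IsNewCoh M ψ` : `ψ ∈ Hom(Γ₀(M), A)` is killed by both transfers (corestrictions) to level
  `N`, for every factorisation `M = N q`, `q` prime;
* `latNew M` : the sublattice of new classes of `Hom_par(Γ₀(M), ℤ)`;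
* `ktQuotAdd`, `ktThetaAdd` : the additive form of helper55's `ktQuot`, `ktTheta`.

## Statements (rows SS2-J*)

* `PushParabolicStatement` (J1), `PushCohTStatement` (J2) : the transfers along the two
  degeneracy homomorphisms preserve parabolic classes and commute with `cohT ℓ`, `ℓ ∤ N q`;
* `PeriodNewStatement` (J3) : the period class of a newform is new;
* `KummerNewStatement M` (J4) : Kummer embeddings `Λ → J₀(M)[m]` mapping new classes to new
  classes; `PushCharStatement` : its complex heart;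
* `KCTorsionStatement` ((KC)_J, S36), `KTTorsionStatement` ((KT)_J, S35) : the geometric inputs
  at torsion level, bounded factors allowed;
* `KTFnStatement L q` : (KT-FF) with a bounded exponent; `BridgeKCStatement`,
  `BridgeKTStatement` (J6) : function-field form ⟹ torsion form at the same level;
* `NormBaseChangeStatement`, `LevelKCStatement`, `LevelKTStatement` (J7) : level change at the
  function-field level.
-/

set_option autoImplicit false
set_option linter.style.haveILetI false
set_option linter.unusedSectionVars false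
set_option linter.unusedVariables false

noncomputable section

namespace Fermat.Agent.H52.SS

open AlgebraicCurve ModularCurve CongruenceSubgroup ModularCurve.Period
open Fermat.Agent.H14 Fermat.Agent.H37 Fermat.Agent.H63.LR

/-! ## The transfer is additive and natural -/

section Transfer

/-- The transfer is multiplicative in the homomorphism. -/
theorem transfer_mul' {G : Type*} [Group G] {H : Subgroup G} {A : Type*} [CommGroup A]
    [H.FiniteIndex] (ϕ ϕ' : ↥H →* A) :
    (ϕ * ϕ').transfer = ϕ.transfer * ϕ'.transfer := by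
  classical
  ext g
  obtain ⟨T⟩ : Nonempty H.LeftTransversal := inferInstance
  rw [MonoidHom.mul_apply, MonoidHom.transfer_def _ T, MonoidHom.transfer_def _ T,
    MonoidHom.transfer_def _ T]
  unfold Subgroup.leftTransversals.diff
  rw [← Finset.prod_mul_distrib]
  rfl

/-- The transfer is natural in the coefficient group. -/
theorem transfer_comp' {G : Type*} [Group G] {H : Subgroup G} {A B : Type*} [CommGroup A]
    [CommGroup B] [H.FiniteIndex] (f : A →* B) (ϕ : ↥H →* A) :
    (f.comp ϕ).transfer = f.comp ϕ.transfer := by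
  classical
  ext g
  obtain ⟨T⟩ : Nonempty H.LeftTransversal := inferInstance
  rw [MonoidHom.comp_apply, MonoidHom.transfer_def _ T, MonoidHom.transfer_def _ T]
  unfold Subgroup.leftTransversals.diff
  rw [map_prod]
  rfl

variable {Γ Γ' : Type*} [Group Γ] [Group Γ']

/-- The push-forward (transfer) of homomorphisms is additive. -/
theorem pushHom_add (j : Γ' →* Γ) (A : Type*) [AddCommGroup A] (ψ ψ' : Additive Γ' →+ A) :
    pushHom j A (ψ + ψ') = pushHom j A ψ + pushHom j A ψ' := by
  classical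
  unfold pushHom
  split_ifs with h
  · have := h.2
    have h1 : onRange j h.1 A (ψ + ψ') = onRange j h.1 A ψ * onRange j h.1 A ψ' := by
      ext x
      rfl
    rw [h1, transfer_mul']
    rfl
  · rw [add_zero]

theorem pushHom_zero (j : Γ' →* Γ) (A : Type*) [AddCommGroup A] :
    pushHom j A (0 : Additive Γ' →+ A) = 0 := by
  have h := pushHom_add j A (0 : Additive Γ' →+ A) 0
  rw [add_zero] at h
  exact left_eq_add.mp h

theorem pushHom_neg (j : Γ' →* Γ) (A : Type*) [AddCommGroup A] (ψ : Additive Γ' →+ A) :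
    pushHom j A (-ψ) = -pushHom j A ψ := by
  have h := pushHom_add j A ψ (-ψ)
  rw [add_neg_cancel, pushHom_zero] at h
  exact eq_neg_of_add_eq_zero_right h.symm

/-- The push-forward of homomorphisms as an additive map. -/
def pushHomAdd (j : Γ' →* Γ) (A : Type*) [AddCommGroup A] :
    (Additive Γ' →+ A) →+ (Additive Γ →+ A) where
  toFun := pushHom j A
  map_zero' := pushHom_zero j A
  map_add' := pushHom_add j A

/-- The push-forward of homomorphisms is natural in the coefficient group. -/
theorem pushHom_comp (j : Γ' →* Γ) {A B : Type*} [AddCommGroup A] [AddCommGroup B]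
    (f : A →+ B) (ψ : Additive Γ' →+ A) :
    pushHom j B (f.comp ψ) = f.comp (pushHom j A ψ) := by
  classical
  unfold pushHom
  split_ifs with h
  · have := h.2
    have h1 : onRange j h.1 B (f.comp ψ)
        = (AddMonoidHom.toMultiplicative f).comp (onRange j h.1 A ψ) := by
      ext x
      rfl
    rw [h1, transfer_comp']
    rfl
  · rw [AddMonoidHom.comp_zero]

end Transfer

/-! ## Transport along an equality of levels -/

section Casts

/-- Transport of divisor classes along an equality of levels. -/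
def castJ {M M' : ℕ} (h : M = M') : JZero M →+ JZero M' := by
  subst h
  exact AddMonoidHom.id _

@[simp] theorem castJ_rfl {M : ℕ} (x : JZero M) : castJ (rfl : M = M) x = x := rfl

theorem castJ_smul {M M' : ℕ} (h : M = M')
    (σ : AlgebraicClosure ℚ ≃ₐ[ℚ] AlgebraicClosure ℚ) (x : JZero M) :
    castJ h (σ • x) = σ • castJ h x := by
  subst h
  rfl

/-- Transport of homomorphisms along an equality of levels. -/
def castH (A : Type*) [AddCommGroup A] {M M' : ℕ} (h : M = M') :
    (Additive ↥(Gamma0 M) →+ A) →+ (Additive ↥(Gamma0 M') →+ A) := by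
  subst h
  exact AddMonoidHom.id _

@[simp] theorem castH_rfl (A : Type*) [AddCommGroup A] {M : ℕ}
    (ψ : Additive ↥(Gamma0 M) →+ A) : castH A (rfl : M = M) ψ = ψ := rfl

theorem castH_comp {A B : Type*} [AddCommGroup A] [AddCommGroup B] {M M' : ℕ} (h : M = M')
    (f : A →+ B) (ψ : Additive ↥(Gamma0 M) →+ A) :
    castH B h (f.comp ψ) = f.comp (castH A h ψ) := by
  subst h
  rfl

/-- Transport of modular functions along an equality of levels. -/
def castF {M M' : ℕ} (h : M = M') :
    modularFunctionFieldBar M ≃ₐ[AlgebraicClosure ℚ] modularFunctionFieldBar M' := by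
  subst h
  exact AlgEquiv.refl

@[simp] theorem castF_rfl {M : ℕ} (f : modularFunctionFieldBar M) :
    castF (rfl : M = M) f = f := rfl

theorem coe_castF {M M' : ℕ} (h : M = M') (f : modularFunctionFieldBar M) :
    ((castF h f : modularFunctionFieldBar M') : LaurentSeries (AlgebraicClosure ℚ))
      = (f : LaurentSeries (AlgebraicClosure ℚ)) := by
  subst h
  rfl

end Casts

/-! ## New classes -/

section New

/-- `x ∈ J₀(M)` is NEW: killed by both degeneracy push-forwards to level `N`, for every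
factorisation `M = N q` with `q` prime. -/
def IsNewClass (M : ℕ) (x : JZero M) : Prop :=
  ∀ (N q : ℕ) [NeZero N] [NeZero q] (hq : q.Prime) (h : M = N * q),
    jPushA N q hq (castJ h x) = 0 ∧ jPushB N q hq (castJ h x) = 0

theorem isNewClass_zero (M : ℕ) : IsNewClass M 0 := by
  intro N q _ _ hq h
  rw [map_zero, map_zero, map_zero]
  exact ⟨rfl, rfl⟩

theorem IsNewClass.add {M : ℕ} {x y : JZero M} (hx : IsNewClass M x)
    (hy : IsNewClass M y) : IsNewClass M (x + y) := by
  intro N q _ _ hq h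
  rw [map_add, map_add, map_add, (hx N q hq h).1, (hx N q hq h).2, (hy N q hq h).1,
    (hy N q hq h).2, add_zero]
  exact ⟨rfl, rfl⟩

theorem IsNewClass.neg {M : ℕ} {x : JZero M} (hx : IsNewClass M x) :
    IsNewClass M (-x) := by
  intro N q _ _ hq h
  rw [map_neg, map_neg, map_neg, (hx N q hq h).1, (hx N q hq h).2, neg_zero]
  exact ⟨rfl, rfl⟩

theorem IsNewClass.smul {M : ℕ} {x : JZero M} (hx : IsNewClass M x)
    (σ : AlgebraicClosure ℚ ≃ₐ[ℚ] AlgebraicClosure ℚ) : IsNewClass M (σ • x) := by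
  intro N q _ _ hq h
  have hz : σ • (0 : JZero N) = 0 := smul_zero (A := JZero N) σ
  rw [castJ_smul, jPushA_smul, jPushB_smul, (hx N q hq h).1, (hx N q hq h).2]
  exact ⟨hz, hz⟩

/-- `ψ ∈ Hom(Γ₀(M), A)` is NEW: killed by both transfers to level `N`, for every factorisation
`M = N q` with `q` prime. -/
def IsNewCoh (M : ℕ) {A : Type*} [AddCommGroup A] (ψ : Additive ↥(Gamma0 M) →+ A) : Prop :=
  ∀ (N q : ℕ) (_hq : q.Prime) (h : M = N * q),
    pushHom (incl N q) A (castH A h ψ) = 0 ∧ pushHom (conjD N q) A (castH A h ψ) = 0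

theorem isNewCoh_zero (M : ℕ) (A : Type*) [AddCommGroup A] :
    IsNewCoh M (0 : Additive ↥(Gamma0 M) →+ A) := by
  intro N q hq h
  rw [map_zero, pushHom_zero, pushHom_zero]
  exact ⟨rfl, rfl⟩

theorem IsNewCoh.add {M : ℕ} {A : Type*} [AddCommGroup A] {ψ ψ' : Additive ↥(Gamma0 M) →+ A}
    (hψ : IsNewCoh M ψ) (hψ' : IsNewCoh M ψ') : IsNewCoh M (ψ + ψ') := by
  intro N q hq h
  rw [map_add, pushHom_add, pushHom_add, (hψ N q hq h).1, (hψ N q hq h).2,
    (hψ' N q hq h).1, (hψ' N q hq h).2, add_zero]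
  exact ⟨rfl, rfl⟩

theorem IsNewCoh.neg {M : ℕ} {A : Type*} [AddCommGroup A] {ψ : Additive ↥(Gamma0 M) →+ A}
    (hψ : IsNewCoh M ψ) : IsNewCoh M (-ψ) := by
  intro N q hq h
  rw [map_neg, pushHom_neg, pushHom_neg, (hψ N q hq h).1, (hψ N q hq h).2, neg_zero]
  exact ⟨rfl, rfl⟩

theorem IsNewCoh.zsmul {M : ℕ} {A : Type*} [AddCommGroup A] {ψ : Additive ↥(Gamma0 M) →+ A}
    (hψ : IsNewCoh M ψ) (n : ℤ) : IsNewCoh M (n • ψ) := by
  induction n using Int.induction_on with
  | zero => rw [zero_smul]; exact isNewCoh_zero M A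
  | succ n ih => rw [add_smul, one_smul]; exact ih.add hψ
  | pred n ih => rw [sub_smul, one_smul, sub_eq_add_neg]; exact ih.add hψ.neg

/-- Newness is natural in the coefficient group. -/
theorem IsNewCoh.comp {M : ℕ} {A B : Type*} [AddCommGroup A] [AddCommGroup B]
    {ψ : Additive ↥(Gamma0 M) →+ A} (hψ : IsNewCoh M ψ) (f : A →+ B) :
    IsNewCoh M (f.comp ψ) := by
  intro N q hq h
  rw [castH_comp, pushHom_comp, pushHom_comp, (hψ N q hq h).1, (hψ N q hq h).2,
    AddMonoidHom.comp_zero]
  exact ⟨rfl, rfl⟩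

/-- Newness descends along injective maps of coefficient groups. -/
theorem IsNewCoh.of_comp {M : ℕ} {A B : Type*} [AddCommGroup A] [AddCommGroup B]
    {ψ : Additive ↥(Gamma0 M) →+ A} (f : A →+ B) (hf : Function.Injective f)
    (hψ : IsNewCoh M (f.comp ψ)) : IsNewCoh M ψ := by
  intro N q hq h
  have h1 := hψ N q hq h
  rw [castH_comp, pushHom_comp, pushHom_comp] at h1
  have key : ∀ φ : Additive ↥(Gamma0 N) →+ A, f.comp φ = 0 → φ = 0 := by
    intro φ hφ
    refine AddMonoidHom.ext fun γ => hf ?_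
    rw [AddMonoidHom.zero_apply, map_zero]
    exact DFunLike.congr_fun hφ γ
  exact ⟨key _ h1.1, key _ h1.2⟩

variable (M : ℕ)

/-- The sublattice of new classes of `Hom_par(Γ₀(M), ℤ)`. -/
def latNew : Submodule ℤ (S31Lat M) where
  carrier := {ψ | IsNewCoh M (ψ : Additive ↥(Gamma0 M) →+ ℤ)}
  zero_mem' := isNewCoh_zero M ℤ
  add_mem' := fun {ψ ψ'} hψ hψ' => IsNewCoh.add hψ hψ'
  smul_mem' := fun c ψ hψ => IsNewCoh.zsmul hψ c

theorem mem_latNew {ψ : S31Lat M} :
    ψ ∈ latNew M ↔ IsNewCoh M (ψ : Additive ↥(Gamma0 M) →+ ℤ) := Iff.rfl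

end New

/-! ## The additive form of `Θ = (ψ - Q)² (ψ - 1)²` -/

section Theta

variable {J : Type*} [AddCommGroup J]

/-- `ψ y - k y`: the additive form of helper55's `ktQuot`. -/
def ktQuotAdd (ψ : J → J) (k : ℕ) (y : J) : J := ψ y - k • y

/-- `Θ y = (ψ - Q)² (ψ - 1)² y`: the additive form of helper55's `ktTheta`. -/
def ktThetaAdd (ψ : J → J) (Q : ℕ) (y : J) : J :=
  ktQuotAdd ψ Q (ktQuotAdd ψ Q (ktQuotAdd ψ 1 (ktQuotAdd ψ 1 y)))

end Theta

/-! ## The statements: group cohomology and periods (rows J1, J2, J3) -/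

/-- **(J1) PUSH-PAR.**  The transfers along the two degeneracy homomorphisms
`Γ₀(N q) → Γ₀(N)` preserve parabolic classes (`q` prime, dividing `N` or not). -/
def PushParabolicStatement : Prop :=
  ∀ (N q : ℕ) [NeZero N], q.Prime → ∀ (A : Type) [AddCommGroup A]
    (ψ : Additive ↥(Gamma0 (N * q)) →+ A), IsParabolicHom (Gamma0 (N * q)) ψ →
      IsParabolicHom (Gamma0 N) (pushHom (incl N q) A ψ) ∧
      IsParabolicHom (Gamma0 N) (pushHom (conjD N q) A ψ)

/-- **(J2) PUSH-COHT.**  The transfers along the two degeneracy homomorphisms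
`Γ₀(N q) → Γ₀(N)` commute with the cohomological Hecke operators `T_ℓ`, `ℓ ∤ N q`
(`q` prime, dividing `N` or not). -/
def PushCohTStatement : Prop :=
  ∀ (N q : ℕ) [NeZero N], q.Prime → ∀ (ℓ : ℕ) (hℓ : ℓ.Prime) (hℓN : ¬ ℓ ∣ N)
    (hℓNq : ¬ ℓ ∣ N * q) (A : Type) [AddCommGroup A] (ψ : Additive ↥(Gamma0 (N * q)) →+ A),
      pushHom (incl N q) A (Fermat.Agent.H21.cohT (N * q) ℓ hℓ hℓNq A ψ)
        = Fermat.Agent.H21.cohT N ℓ hℓ hℓN A (pushHom (incl N q) A ψ) ∧
      pushHom (conjD N q) A (Fermat.Agent.H21.cohT (N * q) ℓ hℓ hℓNq A ψ)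
        = Fermat.Agent.H21.cohT N ℓ hℓ hℓN A (pushHom (conjD N q) A ψ)

/-- **(J3) PER-NEW.**  The period class of a newform is new.
(Proof: `ω = per(g, g)`; `ψ = cor ω` is parabolic (J1), so `ψ = per_N(f, f')` by
Eichler–Shimura at level `N` (S21); `T_ℓ ψ = a_ℓ(g) ψ` for `ℓ ∤ M` (J2, Hecke equivariance of
the period map, `periodHomPair` is `ℂ`-linear), so `T_ℓ f = a_ℓ(g) f`, `T_ℓ f' = a_ℓ(g) f'` by
injectivity; a nonzero such `f` gives a normalised eigenform of level `N` with the eigenvalues
`a_ℓ(g)`, `ℓ ∤ M` (`Fermat.Agent.H74.exists_isNormalizedEigenform_of_eigenvector`, after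
passing to an eigenvector of `T_q` in the eigenspace if `q ∤ N`), contradicting
`IsNewform`.) -/
def PeriodNewStatement : Prop :=
  ∀ (M : ℕ) [NeZero M] (g : CuspForm (Gamma0 M) 2), g.IsNewform →
    IsNewCoh M (periodHomPair M (g, g))

/-! ## The statements: Kummer theory (row J4) -/

/-- **(J4) KUM-NEW: Kummer embeddings respect newness.**  As
`Fermat.Agent.H14.KummerEmbeddingStatement`, with in addition: new classes of the lattice are
mapped to new classes of `J₀(M)`.
(Reason: under the torsion–character dictionary the push-forward of divisor classes along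
`α`, `β` is the transfer of characters along `incl`, `conjD`; see `PushCharStatement`.) -/
def KummerNewStatement (M : ℕ) [NeZero M] : Prop :=
  ∀ m : ℕ, 0 < m → ∃ κ : S31Lat M →+ JZero M,
    (∀ ψ : S31Lat M, m • κ ψ = 0) ∧
    (∀ ψ : S31Lat M, κ ψ = 0 → ∃ ψ' : S31Lat M, ψ = m • ψ') ∧
    (∀ (ℓ : ℕ) (hℓ : ℓ.Prime) (hℓN : ¬ ℓ ∣ M) (ψ ψ' : S31Lat M),
      (ψ' : Additive ↥(Gamma0 M) →+ ℤ)
          = Fermat.Agent.H21.cohT M ℓ hℓ hℓN ℤ (ψ : Additive ↥(Gamma0 M) →+ ℤ) →
        κ ψ' = heckeOperatorBar M ⟨ℓ, hℓ⟩ (κ ψ)) ∧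
    (∀ ψ : S31Lat M, IsNewCoh M (ψ : Additive ↥(Gamma0 M) →+ ℤ) → IsNewClass M (κ ψ))

section Complex

variable (N q : ℕ) [NeZero N] [NeZero q]

/-- The push-forward `α_*` of divisor classes over `ℂ`. -/
def cPushA (hq : q.Prime) :
    Pic0 ℂ ↥(Fermat.Agent.H23.EsA.FC (N * q)) →+ Pic0 ℂ ↥(Fermat.Agent.H23.EsA.FC N) :=
  pic0PushforwardAlong (heckeAlphaBar ℂ N q)
    (Fermat.Agent.H49.isIntegral_of_finiteAlong _
      (Fermat.Agent.H54.degeneracyFinite ℂ N q hq).1)
    (Fermat.Agent.H54.degeneracyFinite ℂ N q hq).1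
    (Fermat.Agent.H49.normFormulaAlong_of_finite _
      (Fermat.Agent.H54.degeneracyFinite ℂ N q hq).1)

/-- The push-forward `β_*` of divisor classes over `ℂ`. -/
def cPushB (hq : q.Prime) :
    Pic0 ℂ ↥(Fermat.Agent.H23.EsA.FC (N * q)) →+ Pic0 ℂ ↥(Fermat.Agent.H23.EsA.FC N) :=
  pic0PushforwardAlong (heckeBetaBar ℂ N q)
    (Fermat.Agent.H49.isIntegral_of_finiteAlong _
      (Fermat.Agent.H54.degeneracyFinite ℂ N q hq).2)
    (Fermat.Agent.H54.degeneracyFinite ℂ N q hq).2
    (Fermat.Agent.H49.normFormulaAlong_of_finite _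
      (Fermat.Agent.H54.degeneracyFinite ℂ N q hq).2)

end Complex

/-- The transfer of multiplicative characters along `j`. -/
def pushChar {Γ Γ' : Type*} [Group Γ] [Group Γ'] (j : Γ' →* Γ) (χ : Γ' →* ℂˣ) : Γ →* ℂˣ :=
  MonoidHom.toAdditive.symm (pushHom j (Additive ℂˣ) (MonoidHom.toAdditive χ))

/-- **(J4-C) PUSH-CHAR**, the complex heart of (J4): the torsion–character relation intertwines
the push-forward of divisor classes along `α` (resp. `β`) with the transfer of characters along
`incl` (resp. `conjD`).  (Twin of `Fermat.Agent.H21.EsC.KummerHeckeStatement`: from a datum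
`(D, f, G)` for `(x, χ)` the datum `(α_* D, Norm_α f, ∏_γ G ∘ γ)`, `γ` running through
representatives of `Γ₀(N q) \ Γ₀(N)`; for `β` the translates `G ∘ δ⁻¹ γ`, `δ = diag(q, 1)`.) -/
def PushCharStatement : Prop :=
  ∀ (N q : ℕ) [NeZero N] [NeZero q] (hq : q.Prime) (m : ℕ), 0 < m →
    ∀ (x : Pic0 ℂ ↥(Fermat.Agent.H23.EsA.FC (N * q))) (χ : ↥(Gamma0 (N * q)) →* ℂˣ),
      Fermat.Agent.H23.EsA.TorsionCharRel (N * q) m x χ →
      Fermat.Agent.H23.EsA.TorsionCharRel N m (cPushA N q hq x) (pushChar (incl N q) χ) ∧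
      Fermat.Agent.H23.EsA.TorsionCharRel N m (cPushB N q hq x) (pushChar (conjD N q) χ)

/-! ## The statements: the geometric inputs at torsion level -/

/-- (KC)_J at level `N q`, for the place `A`, the prime `p` and the factor `c`: the inertia
invariants of the `p`-power torsion of the `q`-new part are killed by `c`. -/
def KCTorsionAt (N q : ℕ) [NeZero N] [NeZero q] (hq : q.Prime) (p : ℕ)
    (A : ValuationSubring (AlgebraicClosure ℚ)) (c : ℕ) : Prop :=
  ∀ x : JZero (N * q), (∃ k : ℕ, p ^ k • x = 0) →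
    jPushA N q hq x = 0 → jPushB N q hq x = 0 →
    (∀ τ ∈ A.inertiaSubgroupIn ℚ, τ • x = x) → c • x = 0

/-- **(KC)_J** (S36, geometric input, torsion level): at level `N q` with `q ∥ N` (so
`q² ∥ N q`), for SOME place `A` over `q`, the inertia invariants of the `p`-power torsion of the
`q`-new part `ker α_* ∩ ker β_*` are killed by a bounded factor (`p ≠ q`). -/
def KCTorsionStatement : Prop :=
  ∀ (N q : ℕ) [NeZero N] [NeZero q] (hq : q.Prime), q ∣ N → ¬ q ^ 2 ∣ N →
    ∀ (p : ℕ), p.Prime → p ≠ q →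
      ∃ A : ValuationSubring (AlgebraicClosure ℚ), A.LiesOverPrime q ∧
        ∃ c : ℕ, c ≠ 0 ∧ KCTorsionAt N q hq p A c

/-- (KT)_J at level `N q`, for the place `A`, the Frobenius lift `φ`, the prime `p` and the
factor `c`: on the inertia invariants of the `p`-power torsion of the `q`-new part,
`c (φ² - q²)² (φ² - 1)² = 0`. -/
def KTTorsionAt (N q : ℕ) [NeZero N] [NeZero q] (hq : q.Prime) (p : ℕ)
    (A : ValuationSubring (AlgebraicClosure ℚ))
    (φ : AlgebraicClosure ℚ ≃ₐ[ℚ] AlgebraicClosure ℚ) (c : ℕ) : Prop :=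
  ∀ x : JZero (N * q), (∃ k : ℕ, p ^ k • x = 0) →
    jPushA N q hq x = 0 → jPushB N q hq x = 0 →
    (∀ τ ∈ A.inertiaSubgroupIn ℚ, τ • x = x) →
      c • ktThetaAdd (fun y : JZero (N * q) => φ • φ • y) (q ^ 2) x = 0

/-- **(KT)_J** (S35, geometric input, torsion level): at level `N q`, `q ∤ N`, for every place
`A` over `q` and every Frobenius lift `φ` at `A`: `c (φ² - q²)² (φ² - 1)² = 0` on the inertia
invariants of the `p`-power torsion of the `q`-new part (`p ≠ q`), for a bounded factor `c`. -/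
def KTTorsionStatement : Prop :=
  ∀ (N q : ℕ) [NeZero N] [NeZero q] (hq : q.Prime), ¬ q ∣ N →
    ∀ (p : ℕ), p.Prime → p ≠ q →
      ∀ A : ValuationSubring (AlgebraicClosure ℚ), A.LiesOverPrime q →
        ∀ φ : AlgebraicClosure ℚ ≃ₐ[ℚ] AlgebraicClosure ℚ, A.IsFrobeniusAt φ q →
          ∃ c : ℕ, c ≠ 0 ∧ KTTorsionAt N q hq p A φ c

/-- **(u)_J** (S35, from the geometric target of S34 by helper71's level change
`Fermat.Agent.H71.SS.weakUnipotentAt_of_aux`): weak unipotency of inertia at `q ∥ M` on the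
`p`-power torsion of `J₀(M)`. -/
def WeakUnipotentStatement : Prop :=
  ∀ (M : ℕ) [NeZero M] (q p : ℕ), q.Prime → p.Prime → q ≠ p → q ∣ M → ¬ q ^ 2 ∣ M →
    ∃ c : ℕ, c ≠ 0 ∧
      ∀ B : ValuationSubring (AlgebraicClosure ℚ), B.LiesOverPrime q →
        ∀ σ ∈ B.inertiaSubgroupIn ℚ, ∀ (k : ℕ) (x : JZero M), p ^ k • x = 0 →
          c • (σ • σ • x - 2 • (σ • x) + x) = 0

/-! ## The statements: the bridge from the function-field contracts (row J6) -/

/-- **(KT-FF) with a bounded exponent**: as `Fermat.Agent.H55.SS.ToricFrobFFStatement`, with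
conclusion "`(Θ f) ^ d` is an `m`-th power" (`d > 0` independent of `m`, `f`).  This weak form
is stable under level change. -/
def KTFnStatement (L q : ℕ) [NeZero L] [NeZero q] : Prop :=
  ∀ (A : ValuationSubring (AlgebraicClosure ℚ)), A.LiesOverPrime q →
    ∀ φ : AlgebraicClosure ℚ ≃ₐ[ℚ] AlgebraicClosure ℚ, A.IsFrobeniusAt φ q →
    ∃ d : ℕ, 0 < d ∧ ∀ (m : ℕ), 0 < m → ¬ q ∣ m →
      ∀ f : modularFunctionFieldBar (L * q), f ≠ 0 →
        (∀ P : Place (AlgebraicClosure ℚ) (modularFunctionFieldBar (L * q)),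
          (m : ℤ) ∣ P.ord f) →
        (∀ σ ∈ A.inertiaSubgroupIn ℚ, ∃ w : modularFunctionFieldBar (L * q),
          w ^ m * f = arithmeticGalois (modularFunctionFieldFull (L * q)) σ • f) →
        (∃ h : modularFunctionFieldBar L,
          h ^ m = Fermat.Agent.H11.SS2.ss2NormAlong
            (heckeAlphaBar (AlgebraicClosure ℚ) L q) f) →
        (∃ h : modularFunctionFieldBar L,
          h ^ m = Fermat.Agent.H11.SS2.ss2NormAlong
            (heckeBetaBar (AlgebraicClosure ℚ) L q) f) →
        ∃ w : modularFunctionFieldBar (L * q),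
          w ^ m = (Fermat.Agent.H55.SS.ktTheta (fun g : modularFunctionFieldBar (L * q) =>
            arithmeticGalois (modularFunctionFieldFull (L * q)) φ •
              arithmeticGalois (modularFunctionFieldFull (L * q)) φ • g) (q ^ 2) f) ^ d

/-- The contract of helper55 implies the weak form (`d = 1`). -/
theorem ktFn_of_toricFrobFF (L q : ℕ) [NeZero L] [NeZero q]
    (h : Fermat.Agent.H55.SS.ToricFrobFFStatement L q) : KTFnStatement L q := by
  intro A hA φ hφ
  refine ⟨1, Nat.one_pos, fun m hm hqm f hf h1 h2 h3 h4 => ?_⟩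
  obtain ⟨w, hw⟩ := h A hA φ hφ m hm hqm f hf h1 h2 h3 h4
  exact ⟨w, by rw [hw, pow_one]⟩

/-- **(J6) BRIDGE, (KC)**: the function-field form at level `L q` implies the torsion form at
the same level.  (Proof: `Fermat.Agent.H53.jZero_exists_invariant_datum` gives `f` with
`div f = m D`, `x = [D]`, fixed by every `σ` fixing `x`; `α_* x = 0` and the norm formula give
`N_α f = const · h ^ m`, constants are `m`-th powers; `f ^ c = w ^ m` gives `c D = div w`.) -/
def BridgeKCStatement : Prop :=
  ∀ (L q : ℕ) [NeZero L] [NeZero q] (hq : q.Prime),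
    Fermat.Agent.H11.SS2.NewInvariantFFStatement L q →
    ∀ (p : ℕ), p.Prime → p ≠ q →
      ∀ A : ValuationSubring (AlgebraicClosure ℚ), A.LiesOverPrime q →
        ∃ c : ℕ, c ≠ 0 ∧ KCTorsionAt L q hq p A c

/-- **(J6) BRIDGE, (KT)**: the function-field form at level `L q` implies the torsion form at
the same level. -/
def BridgeKTStatement : Prop :=
  ∀ (L q : ℕ) [NeZero L] [NeZero q] (hq : q.Prime), KTFnStatement L q →
    ∀ (p : ℕ), p.Prime → p ≠ q →
      ∀ A : ValuationSubring (AlgebraicClosure ℚ), A.LiesOverPrime q →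
        ∀ φ : AlgebraicClosure ℚ ≃ₐ[ℚ] AlgebraicClosure ℚ, A.IsFrobeniusAt φ q →
          ∃ c : ℕ, c ≠ 0 ∧ KTTorsionAt L q hq p A φ c

/-! ## The statements: level change at the function-field level (row J7) -/

section Level

variable (L q r : ℕ) [NeZero L] [NeZero q] [NeZero r]

/-- The inclusion `F_{L q} → F_{(L r) q}` (the prelude map `α` for the prime `r` at level `L q`,
followed by the transport along `L q r = L r q`). -/
def lvlMap : modularFunctionFieldBar (L * q) →ₐ[AlgebraicClosure ℚ]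
    modularFunctionFieldBar (L * r * q) :=
  (castF (by ring : L * q * r = L * r * q)).toAlgHom.comp
    (heckeAlphaBar (AlgebraicClosure ℚ) (L * q) r)

theorem coe_lvlMap (f : modularFunctionFieldBar (L * q)) :
    ((lvlMap L q r f : modularFunctionFieldBar (L * r * q)) :
      LaurentSeries (AlgebraicClosure ℚ)) = (f : LaurentSeries (AlgebraicClosure ℚ)) := by
  unfold lvlMap
  rw [AlgHom.comp_apply]
  exact (coe_castF _ _).trans (coe_heckeAlphaBar (L * q) r f)

end Level

/-- **(J7a) NORM-BC**: base change of the norms along the two degeneracy maps at `q` under the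
level change `L → L r` (`r ≠ q` prime): for `f ∈ F_{L q}`,
`N_{α_q, level L r}(f) = α_r (N_{α_q, level L}(f))` and the same for `β_q`.
(The squares `F_L → F_{L q}`, `F_L → F_{L r}`, `F_{L r} → F_{L r q}` are "cartesian":
`[F_{L r q} : F_{L r}] = [F_{L q} : F_L]` and `F_{L r q}` is generated by `F_{L q}` and
`F_{L r}`.) -/
def NormBaseChangeStatement : Prop :=
  ∀ (L q r : ℕ) [NeZero L] [NeZero q] [NeZero r], q.Prime → r.Prime → q ≠ r →
    ∀ f : modularFunctionFieldBar (L * q),
      Fermat.Agent.H11.SS2.ss2NormAlong (heckeAlphaBar (AlgebraicClosure ℚ) (L * r) q)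
          (lvlMap L q r f)
        = heckeAlphaBar (AlgebraicClosure ℚ) L r
          (Fermat.Agent.H11.SS2.ss2NormAlong (heckeAlphaBar (AlgebraicClosure ℚ) L q) f) ∧
      Fermat.Agent.H11.SS2.ss2NormAlong (heckeBetaBar (AlgebraicClosure ℚ) (L * r) q)
          (lvlMap L q r f)
        = heckeAlphaBar (AlgebraicClosure ℚ) L r
          (Fermat.Agent.H11.SS2.ss2NormAlong (heckeBetaBar (AlgebraicClosure ℚ) L q) f)

/-- **(J7) LEVEL, (KC)**: (KC-FF) at level `(L r) q` implies (KC-FF) at level `L q`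
(`r ≠ q` prime).  (Proof: apply the statement at level `L r` to `lvlMap f`: the orders are
multiplied by ramification indices, `lvlMap` is Galois equivariant, the norms are `m`-th powers
by (J7a); from `(lvlMap f) ^ c = w ^ m` take the norm along `lvlMap`:
`f ^ (c d) = (N w) ^ m`, `d = [F_{L r q} : F_{L q}]`.) -/
def LevelKCStatement : Prop :=
  ∀ (L q r : ℕ) [NeZero L] [NeZero q] [NeZero r], q.Prime → r.Prime → q ≠ r →
    Fermat.Agent.H11.SS2.NewInvariantFFStatement (L * r) q →
    Fermat.Agent.H11.SS2.NewInvariantFFStatement L q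

/-- **(J7) LEVEL, (KT)**: (KT-FF) (weak form) at level `(L r) q` implies (KT-FF) (weak form) at
level `L q` (`r ≠ q` prime). -/
def LevelKTStatement : Prop :=
  ∀ (L q r : ℕ) [NeZero L] [NeZero q] [NeZero r], q.Prime → r.Prime → q ≠ r →
    KTFnStatement (L * r) q → KTFnStatement L q

end Fermat.Agent.H52.SS
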