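import Fermat.Agent.H52.SS.NewGlue
import Fermat.Agent.H52.ESS35
import Fermat.Agent.H22.ES.KLFinal
import Fermat.Agent.H28.ES.S29KL
import Fermat.Agent.H71.SS.LevelCore
import Fermat.Agent.H81.ValFrob
import Fermat.Agent.H97.QES3

/-!
# P-SS / P-SS2, `J`-side: the final wiring of S35 and S36 (helper52)

All inputs of the `J`-side as hypotheses, in the exact form in which the rows deliver them:

* rows SS2-J2 (`PushCohTStatement`), SS2-J3 (`PeriodNewStatement`), SS2-J4
  (`KummerNewStatement`), SS2-J6 (`BridgeKCStatement`, `BridgeKTStatement`), SS2-J7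
  (`LevelKCStatement`, `LevelKTStatement`);
* the geometric contracts AT THE AUXILIARY LEVELS (`4 ∣ M'` for `q` odd, `9 ∣ M'` for `q = 2`):
  `KCFFAuxStatement` (S36), `KTFFAuxStatement` (S35), and helper71's
  `UnipotentTorsionAuxStatement` (the geometric target of S34, input (u) of S35).

The torsion package of P-ES (`HeckeGaloisTorsionStatement`, `EichlerShimuraRelStatement`) is
plugged in unconditionally.

Main results: `carayolLattice_of_rows`, `newformLattice_of_rows`, and the frozen statements in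
the forms `s36_of_rows`, `s35_of_rows`.
-/

set_option autoImplicit false

noncomputable section

namespace Fermat.Agent.H52.SS

open AlgebraicCurve ModularCurve CongruenceSubgroup Polynomial

/-! ## The geometric contracts at the auxiliary levels -/

/-- **(KC-FF) at the auxiliary levels**: `NewInvariantFFStatement (M' q) q` for `q ∤ M'`,
`4 ∣ M'` (`q` odd) resp. `9 ∣ M'` (`q = 2`).  (Delivered by P-SS2: helper35's
`desc_of_modelHyps` applied to the model statement.) -/
def KCFFAuxStatement : Prop :=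
  ∀ (M' q : ℕ) [NeZero M'] [NeZero q], q.Prime → ¬ q ∣ M' →
    (q ≠ 2 → 4 ∣ M') → (q = 2 → 9 ∣ M') →
    Fermat.Agent.H11.SS2.NewInvariantFFStatement (M' * q) q

/-- **(KT-FF) at the auxiliary levels**: `ToricFrobFFStatement M' q` for `q ∤ M'`, `4 ∣ M'`
(`q` odd) resp. `9 ∣ M'` (`q = 2`).  (Delivered by P-SS block (KT): helper58's
`toricFrobFF_of_model_final` applied to helper55's model statement.) -/
def KTFFAuxStatement : Prop :=
  ∀ (M' q : ℕ) [NeZero M'] [NeZero q], q.Prime → ¬ q ∣ M' →
    (q ≠ 2 → 4 ∣ M') → (q = 2 → 9 ∣ M') →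
    Fermat.Agent.H55.SS.ToricFrobFFStatement M' q

/-! ## Transport of the contracts along equalities of levels -/

theorem newInvariantFF_cast {L L' q : ℕ} [NeZero L] [NeZero L'] [NeZero q] (h : L = L')
    (hL : Fermat.Agent.H11.SS2.NewInvariantFFStatement L q) :
    Fermat.Agent.H11.SS2.NewInvariantFFStatement L' q := by
  subst h
  exact hL

theorem ktFn_cast {L L' q : ℕ} [NeZero L] [NeZero L'] [NeZero q] (h : L = L')
    (hL : KTFnStatement L q) : KTFnStatement L' q := by
  subst h
  exact hL

/-- The auxiliary prime: `r = 2` for `q` odd, `r = 3` for `q = 2`. -/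
theorem exists_auxPrime (q : ℕ) :
    ∃ r : ℕ, r.Prime ∧ q ≠ r ∧ (q ≠ 2 → r = 2) ∧ (q = 2 → r = 3) := by
  by_cases h2 : q = 2
  · exact ⟨3, by norm_num, by omega, fun h => absurd h2 h, fun _ => rfl⟩
  · exact ⟨2, by norm_num, h2, fun _ => rfl, fun h => absurd h h2⟩

/-! ## (KC)_J and (KT)_J from the contracts at the auxiliary levels -/

/-- (KC-FF) at every level `N q`, `q ∥ N`, from the auxiliary levels and the level change. -/
theorem newInvariantFF_of_aux (hLv : LevelKCStatement) (hFF : KCFFAuxStatement)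
    (N q : ℕ) [NeZero N] [NeZero q] (hq : q.Prime) (hqN : q ∣ N) (hq2 : ¬ q ^ 2 ∣ N) :
    Fermat.Agent.H11.SS2.NewInvariantFFStatement N q := by
  obtain ⟨r, hr, hqr, hr4, hr9⟩ := exists_auxPrime q
  have : NeZero r := ⟨hr.ne_zero⟩
  obtain ⟨N', rfl⟩ := hqN
  -- `N = q * N'`, `q ∤ N'`
  have hN'0 : N' ≠ 0 := by
    rintro rfl
    exact NeZero.ne (q * 0) (by simp)
  have : NeZero N' := ⟨hN'0⟩
  have hqN' : ¬ q ∣ N' := by
    rintro ⟨t, rfl⟩
    exact hq2 ⟨t, by ring⟩
  have hqrr : ¬ q ∣ N' * r * r := by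
    intro hdvd
    have h1 : Nat.Coprime q r := (Nat.coprime_primes hq hr).2 hqr
    rw [mul_assoc] at hdvd
    exact hqN' ((Nat.Coprime.mul_right h1 h1).dvd_of_dvd_mul_right hdvd)
  have h4 : q ≠ 2 → 4 ∣ N' * r * r := by
    intro h
    rw [hr4 h, mul_assoc]
    exact Dvd.intro_left N' rfl
  have h9 : q = 2 → 9 ∣ N' * r * r := by
    intro h
    rw [hr9 h, mul_assoc]
    exact Dvd.intro_left N' rfl
  have h0 := hFF (N' * r * r) q hq hqrr h4 h9
  have h1 : Fermat.Agent.H11.SS2.NewInvariantFFStatement (q * N' * r * r) q :=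
    newInvariantFF_cast (by ring) h0
  exact hLv (q * N') q r hq hr hqr (hLv (q * N' * r) q r hq hr hqr h1)

/-- **(KC)_J** from the bridge, the level change and the contract at the auxiliary levels. -/
theorem kcTorsion_of_ff (hB : BridgeKCStatement) (hLv : LevelKCStatement)
    (hFF : KCFFAuxStatement) : KCTorsionStatement := by
  intro N q _ _ hq hqN hq2 p hp hpq
  obtain ⟨A, hA⟩ :=
    Fermat.Agent.H81.exists_valuationSubring_liesOverPrime (K := AlgebraicClosure ℚ) q hq
  exact ⟨A, hA, hB N q hq (newInvariantFF_of_aux hLv hFF N q hq hqN hq2) p hp hpq A hA⟩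

/-- (KT-FF), weak form, at every level `N q`, `q ∤ N`. -/
theorem ktFn_of_aux (hLv : LevelKTStatement) (hFF : KTFFAuxStatement)
    (N q : ℕ) [NeZero N] [NeZero q] (hq : q.Prime) (hqN : ¬ q ∣ N) :
    KTFnStatement N q := by
  obtain ⟨r, hr, hqr, hr4, hr9⟩ := exists_auxPrime q
  have : NeZero r := ⟨hr.ne_zero⟩
  have hqrr : ¬ q ∣ N * r * r := by
    intro hdvd
    have h1 : Nat.Coprime q r := (Nat.coprime_primes hq hr).2 hqr
    rw [mul_assoc] at hdvd
    exact hqN ((Nat.Coprime.mul_right h1 h1).dvd_of_dvd_mul_right hdvd)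
  have h4 : q ≠ 2 → 4 ∣ N * r * r := by
    intro h
    rw [hr4 h, mul_assoc]
    exact Dvd.intro_left N rfl
  have h9 : q = 2 → 9 ∣ N * r * r := by
    intro h
    rw [hr9 h, mul_assoc]
    exact Dvd.intro_left N rfl
  have h0 : KTFnStatement (N * r * r) q :=
    ktFn_of_toricFrobFF _ _ (hFF (N * r * r) q hq hqrr h4 h9)
  exact hLv N q r hq hr hqr (hLv (N * r) q r hq hr hqr h0)

/-- **(KT)_J** from the bridge, the level change and the contract at the auxiliary levels. -/
theorem ktTorsion_of_ff (hB : BridgeKTStatement) (hLv : LevelKTStatement)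
    (hFF : KTFFAuxStatement) : KTTorsionStatement := by
  intro N q _ _ hq hqN p hp hpq A hA φ hφ
  exact hB N q hq (ktFn_of_aux hLv hFF N q hq hqN) p hp hpq A hA φ hφ

/-- **(u)_J** from the geometric target of S34 at the auxiliary levels. -/
theorem weakUnipotent_of_aux (hAux : Fermat.Agent.H71.SS.UnipotentTorsionAuxStatement) :
    WeakUnipotentStatement := by
  intro M _ q p hq hp hqp hqM hq2
  exact Fermat.Agent.H71.SS.weakUnipotentAt_of_aux hAux M hq hp hqp hqM hq2

/-! ## The lattice statements -/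

/-- **The Carayol lattice statement (S36) from the rows.** -/
theorem carayolLattice_of_rows (h2 : PushCohTStatement) (h3 : PeriodNewStatement)
    (h4 : ∀ (M : ℕ) [NeZero M], KummerNewStatement M)
    (hB : BridgeKCStatement) (hLv : LevelKCStatement) (hFF : KCFFAuxStatement) :
    Fermat.Agent.H52.CarayolLatticeStatement :=
  carayolLattice_of_jside h2 h3 h4
    (fun N _ => Fermat.Agent.H97.heckeGaloisTorsionStatement N)
    (fun N _ => Fermat.Agent.H28.eichlerShimuraRel_of_kl Fermat.Agent.H22.KL.keyLemmaAll N)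
    (kcTorsion_of_ff hB hLv hFF)

/-- **The newform lattice statement (S35) from the rows.** -/
theorem newformLattice_of_rows (h2 : PushCohTStatement) (h3 : PeriodNewStatement)
    (h4 : ∀ (M : ℕ) [NeZero M], KummerNewStatement M)
    (hB : BridgeKTStatement) (hLv : LevelKTStatement) (hFF : KTFFAuxStatement)
    (hAux : Fermat.Agent.H71.SS.UnipotentTorsionAuxStatement) :
    Fermat.Agent.H52.NewformLatticeStatement :=
  Fermat.Agent.H55.SS.newformLattice_of_unipChain
    (newformUnipChainLattice_of_jside h2 h3 h4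
      (fun N _ => Fermat.Agent.H97.heckeGaloisTorsionStatement N)
      (fun N _ => Fermat.Agent.H28.eichlerShimuraRel_of_kl Fermat.Agent.H22.KL.keyLemmaAll N)
      (weakUnipotent_of_aux hAux) (ktTorsion_of_ff hB hLv hFF))

end Fermat.Agent.H52.SS
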