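import Mathlib
import Fermat.Agent.H52.ESTateFull
import Fermat.Agent.H31.Tate.KummerOccurs

/-!
# The eigenlattice inside a stable subgroup (abstract form; Mathlib + the Tate machine)

`exists_lattice_of_subgroup` : `J` an abelian group with an action of `G` and additive operators
`T i`; `C ≤ J` a subgroup of `p`-power torsion elements, stable under `G` and the `T i`, on which
the `T i` commute with `G`; a faithful Hecke lattice `Λ₀` with Kummer maps `Λ₀ → C`.  Then there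
is a nonzero finite free `𝒪`-lattice `Λ` with `G`-action on which every relation valid on `C`
holds: congruences, triviality, quadratic relations, and the master transfer / no-invariants
clauses of `Fermat.Agent.H52.tateMachineFull`, with all `J`-side hypotheses quantified over
`x ∈ C` only.
-/

set_option autoImplicit false
set_option linter.style.haveILetI false
set_option linter.unusedSectionVars false
set_option linter.unusedVariables false

noncomputable section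

namespace Fermat.Agent.H52.SS

open scoped TensorProduct

section Sub

variable {G : Type} [Group G] {J : Type} [AddCommGroup J] [DistribMulAction G J]
  (C : AddSubgroup J) (hCG : ∀ (g : G) (x : J), x ∈ C → g • x ∈ C)

/-- The induced action on a stable subgroup. -/
@[reducible] def subAction : DistribMulAction G ↥C where
  smul g x := ⟨g • (x : J), hCG g x x.2⟩
  one_smul x := Subtype.ext (one_smul _ _)
  mul_smul g h x := Subtype.ext (mul_smul _ _ _)
  smul_zero g := Subtype.ext (smul_zero _)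
  smul_add g x y := Subtype.ext (smul_add _ _ _)

/-- Restriction of an additive endomorphism to a stable subgroup. -/
def subOp (T : J →+ J) (hT : ∀ x, x ∈ C → T x ∈ C) : ↥C →+ ↥C :=
  AddMonoidHom.mk' (fun x => ⟨T (x : J), hT x x.2⟩)
    (fun x y => Subtype.ext (by
      show T ((x + y : ↥C) : J) = T (x : J) + T (y : J)
      rw [AddSubgroup.coe_add, map_add]))

/-- The action of the group ring on a stable subgroup is the restriction of the action on the
ambient group. -/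
theorem coe_lift_sub (z : MonoidAlgebra ℤ G) (x : ↥C) :
    ((letI := subAction C hCG
      MonoidAlgebra.lift ℤ (Module.End ℤ ↥C) G (DistribMulAction.toModuleEnd ℤ ↥C) z x : ↥C) : J)
      = MonoidAlgebra.lift ℤ (Module.End ℤ J) G (DistribMulAction.toModuleEnd ℤ J) z (x : J) := by
  letI := subAction C hCG
  induction z using MonoidAlgebra.induction_on with
  | of g =>
    rw [MonoidAlgebra.lift_of, MonoidAlgebra.lift_of]
    rfl
  | add z₁ z₂ h₁ h₂ =>
    rw [map_add, map_add, LinearMap.add_apply, LinearMap.add_apply, AddSubgroup.coe_add, h₁, h₂]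
  | smul r z h =>
    rw [map_smul, map_smul, LinearMap.smul_apply, LinearMap.smul_apply, AddSubgroup.coe_zsmul, h]

end Sub

/-- **The eigenlattice inside a stable subgroup.** -/
theorem exists_lattice_of_subgroup
    (p : ℕ) [Fact p.Prime] (G : Type) [Group G] (J : Type) [AddCommGroup J]
    [DistribMulAction G J] (C : AddSubgroup J)
    (hCG : ∀ (g : G) (x : J), x ∈ C → g • x ∈ C)
    (hCp : ∀ x ∈ C, ∃ k : ℕ, p ^ k • x = 0)
    (ι : Type) (T : ι → (J →+ J)) (hCT : ∀ (i : ι) (x : J), x ∈ C → T i x ∈ C)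
    (hcomm : ∀ (i : ι) (g : G) (x : J), x ∈ C → T i (g • x) = g • T i x)
    (hfin : ∀ k : ℕ, {x : J | p ^ k • x = 0}.Finite)
    (𝒪 : Type) [CommRing 𝒪] [IsDomain 𝒪] [IsDiscreteValuationRing 𝒪]
    [IsAdicComplete (IsLocalRing.maximalIdeal 𝒪) 𝒪] [Finite (IsLocalRing.ResidueField 𝒪)]
    [CharZero 𝒪] (hp𝒪 : (p : 𝒪) ∈ IsLocalRing.maximalIdeal 𝒪) (a : ι → 𝒪)
    (Λ₀ : Type) [AddCommGroup Λ₀] [Module.Free ℤ Λ₀] [Module.Finite ℤ Λ₀]
    (ev : MvPolynomial ι ℤ →+* Module.End ℤ Λ₀)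
    (hfaith : ∀ P : MvPolynomial ι ℤ, ev P = 0 → MvPolynomial.aeval a P = 0)
    (hkum : ∀ k : ℕ, ∃ κ : Λ₀ →+ J, (∀ ψ : Λ₀, κ ψ ∈ C) ∧
      (∀ ψ : Λ₀, p ^ (k + 1) • κ ψ = 0) ∧
      (∀ ψ : Λ₀, κ ψ = 0 → ∃ ψ' : Λ₀, ψ = p ^ (k + 1) • ψ') ∧
      ∀ (i : ι) (ψ : Λ₀), κ (ev (MvPolynomial.X i) ψ) = T i (κ ψ)) :
    ∃ (Λ : Type) (_ : AddCommGroup Λ) (_ : Module 𝒪 Λ) (_ : Module.Free 𝒪 Λ)
      (_ : Module.Finite 𝒪 Λ) (_ : Nontrivial Λ) (ρ : G →* Module.End 𝒪 Λ),
      (∀ (k : ℕ) (g : G), (∀ x ∈ C, p ^ k • x = 0 → g • x = x) →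
        ∀ v : Λ, ρ g v - v ∈ (IsLocalRing.maximalIdeal 𝒪 ^ k) • (⊤ : Submodule 𝒪 Λ)) ∧
      (∀ g : G, (∀ x ∈ C, g • x = x) → ρ g = 1) ∧
      (∀ (g : G) (i : ι) (c : ℕ),
        (∀ x ∈ C, g • g • x - T i (g • x) + c • x = 0) →
          ρ g * ρ g - a i • ρ g + (c : 𝒪) • (1 : Module.End 𝒪 Λ) = 0) ∧
      (∀ (I : Set G) (z : MonoidAlgebra ℤ G) (c : ℕ), c ≠ 0 →
        (∀ x ∈ C, (∀ τ ∈ I, τ • x = x) →
          c • MonoidAlgebra.lift ℤ (Module.End ℤ J) G (DistribMulAction.toModuleEnd ℤ J) z x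
            = 0) →
        ∀ v : Λ, (∀ τ ∈ I, ρ τ v = v) →
          MonoidAlgebra.lift ℤ (Module.End 𝒪 Λ) G ρ z v = 0) ∧
      (∀ (I : Set G) (c : ℕ), c ≠ 0 →
        (∀ x ∈ C, (∀ τ ∈ I, τ • x = x) → c • x = 0) →
        ∀ v : Λ, (∀ τ ∈ I, ρ τ v = v) → v = 0) := by
  letI iact : DistribMulAction G ↥C := subAction C hCG
  have hsmul : ∀ (g : G) (x : ↥C), ((g • x : ↥C) : J) = g • (x : J) := fun _ _ => rfl
  -- the restricted operators
  let T' : ι → (↥C →+ ↥C) := fun i => subOp C (T i) (hCT i)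
  have hT' : ∀ (i : ι) (x : ↥C), ((T' i x : ↥C) : J) = T i (x : J) := fun _ _ => rfl
  have hcomm' : ∀ (i : ι) (g : G) (x : ↥C), T' i (g • x) = g • T' i x := by
    intro i g x
    refine Subtype.ext ?_
    rw [hT', hsmul, hsmul, hT']
    exact hcomm i g (x : J) x.2
  have hfin' : ∀ k : ℕ, Finite {x : ↥C // p ^ k • x = 0} := by
    intro k
    have hF : Finite {x : J // p ^ k • x = 0} := (hfin k).to_subtype
    refine Finite.of_injective
      (fun x : {x : ↥C // p ^ k • x = 0} =>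
        (⟨((x : ↥C) : J), by
          rw [← AddSubgroup.coe_nsmul, x.2, AddSubgroup.coe_zero]⟩ :
            {x : J // p ^ k • x = 0})) ?_
    intro x y h
    have h1 : ((x : ↥C) : J) = ((y : ↥C) : J) :=
      congrArg (fun z : {x : J // p ^ k • x = 0} => (z : J)) h
    exact Subtype.ext (Subtype.ext h1)
  -- the Kummer maps
  have hkum' : ∀ k : ℕ, ∃ κ : Λ₀ →+ ↥C, (∀ ψ : Λ₀, p ^ (k + 1) • κ ψ = 0) ∧
      (∀ ψ : Λ₀, κ ψ = 0 → ∃ ψ' : Λ₀, ψ = p ^ (k + 1) • ψ') ∧
      ∀ (i : ι) (ψ : Λ₀), κ (ev (MvPolynomial.X i) ψ) = T' i (κ ψ) := by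
    intro k
    obtain ⟨κ, hκC, hκ1, hκ2, hκ3⟩ := hkum k
    refine ⟨κ.codRestrict C hκC, ?_, ?_, ?_⟩
    · intro ψ
      refine Subtype.ext ?_
      rw [AddSubgroup.coe_nsmul]
      exact hκ1 ψ
    · intro ψ hψ
      refine hκ2 ψ ?_
      exact congrArg (fun y : ↥C => (y : J)) hψ
    · intro i ψ
      refine Subtype.ext ?_
      exact hκ3 i ψ
  have hocc := Fermat.Agent.H31.Tate.kummerOccurs p Λ₀ ↥C ι T' ev 𝒪 hp𝒪 a hfaith hkum'
  obtain ⟨Λ, i1, i2, i3, i4, i5, ρ, h1, h2, h3, h4, h5, -, -⟩ :=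
    Fermat.Agent.H52.tateMachineFull p G ↥C ι T' hcomm' hfin' 𝒪 hp𝒪 a hocc
  have hcoe0 : ∀ {x : ↥C} {n : ℕ}, n • x = 0 → n • (x : J) = 0 := by
    intro x n h
    rw [← AddSubgroup.coe_nsmul, h, AddSubgroup.coe_zero]
  refine ⟨Λ, i1, i2, i3, i4, i5, ρ, ?_, ?_, ?_, ?_, ?_⟩
  · intro k g hg v
    refine h1 k g (fun x hx => Subtype.ext ?_) v
    exact hg (x : J) x.2 (hcoe0 hx)
  · intro g hg
    refine h2 g (fun x _ => Subtype.ext ?_)
    exact hg (x : J) x.2
  · intro g i c hg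
    refine h3 g i c (fun x _ => Subtype.ext ?_)
    show g • g • (x : J) - T i (g • (x : J)) + c • (x : J) = 0
    exact hg (x : J) x.2
  · intro I z c hc hz v hv
    refine h4 I z c hc (fun x _ hx => Subtype.ext ?_) v hv
    rw [AddSubgroup.coe_nsmul, coe_lift_sub C hCG z x]
    exact hz (x : J) x.2 (fun τ hτ => congrArg (fun y : ↥C => (y : J)) (hx τ hτ))
  · intro I c hc hz v hv
    refine h5 I c hc (fun x _ hx => Subtype.ext ?_) v hv
    rw [AddSubgroup.coe_nsmul]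
    exact hz (x : J) x.2 (fun τ hτ => congrArg (fun y : ↥C => (y : J)) (hx τ hτ))

end Fermat.Agent.H52.SS
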