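import Fermat.Agent.H52.SS.JInterfaces
import Fermat.Agent.H50.EsC.Eigen

/-!
# P-SS / P-SS2, lattice side: the new part of the parabolic lattice

* `latNew_eval_mem` : the lattice `latNew M` of new classes is stable under the Hecke
  polynomials (from (J2) `PushCohTStatement`);
* `newRational` : rational structure of the new part: integral new parabolic classes detect the
  complex ones (helper70's argument, with naturality of the transfer in the coefficients);
* `newFaithful` : a Hecke polynomial killing `latNew M` kills every newform of level `M`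
  (from (J3) `PeriodNewStatement`, by helper79's delta trick);
* `heckeAlgebra_apply_eigen` : an element `t` of the Hecke algebra away from `S ⊇ {q ∣ M}` acts on
  a normalised eigenform `g` by `chig t`;
* `latNew_faithful` : the faithfulness hypothesis of `Fermat.Agent.H31.Tate.kummerOccurs` for the
  restricted action on `latNew M` and the character `iota ∘ chig`.
-/

set_option autoImplicit false
set_option linter.style.haveILetI false
set_option linter.unusedSectionVars false
set_option linter.unusedVariables false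

noncomputable section

namespace Fermat.Agent.H52.SS

open AlgebraicCurve ModularCurve CongruenceSubgroup ModularCurve.Period
open Fermat.Agent.H14 Fermat.Agent.H37 Fermat.Agent.H63.LR

section Stable

variable (M : ℕ) [NeZero M] (S : Finset ℕ)

/-- Newness is preserved by `cohT ℓ`, `ℓ ∤ M`. -/
theorem IsNewCoh.cohT (h2 : PushCohTStatement) {A : Type} [AddCommGroup A]
    {ψ : Additive ↥(Gamma0 M) →+ A} (hψ : IsNewCoh M ψ) (ℓ : ℕ) (hℓ : ℓ.Prime)
    (hℓM : ¬ ℓ ∣ M) : IsNewCoh M (Fermat.Agent.H21.cohT M ℓ hℓ hℓM A ψ) := by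
  intro N q hq h
  subst h
  haveI : NeZero N := ⟨fun h0 => NeZero.ne (N * q) (by rw [h0, zero_mul])⟩
  have hℓN : ¬ ℓ ∣ N := fun hd => hℓM (Dvd.dvd.mul_right hd q)
  obtain ⟨e1, e2⟩ := h2 N q hq ℓ hℓ hℓN hℓM A ψ
  have h1 := hψ N q hq rfl
  rw [castH_rfl] at h1 ⊢
  rw [e1, e2, h1.1, h1.2]
  exact ⟨map_zero _, map_zero _⟩

/-- The new lattice is stable under the Hecke operators. -/
theorem latNew_op_mem (h2 : PushCohTStatement) (ℓ : Nat.Primes) {ψ : S31Lat M}
    (hψ : ψ ∈ latNew M) : s31LatOp M S ℓ ψ ∈ latNew M := by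
  obtain ⟨ℓ, hℓ⟩ := ℓ
  by_cases h : ¬ ℓ ∣ M ∧ ℓ ∉ (↑S : Set ℕ)
  · rw [mem_latNew, s31LatOp_of_good M S hℓ h.1 h.2]
    exact IsNewCoh.cohT M h2 ((mem_latNew M).mp hψ) ℓ hℓ h.1
  · rw [s31LatOp_of_not_good M S hℓ h, LinearMap.zero_apply]
    exact (latNew M).zero_mem

/-- The new lattice is stable under the Hecke polynomials. -/
theorem latNew_eval_mem (h2 : PushCohTStatement) (P : HeckeAlg) :
    ∀ ψ : S31Lat M, ψ ∈ latNew M → s31LatEval M S P ψ ∈ latNew M := by
  induction P using MvPolynomial.induction_on with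
  | C n =>
    intro ψ hψ
    have h1 : s31LatEval M S (MvPolynomial.C n) = (n : Module.End ℤ (S31Lat M)) :=
      (congrArg (s31LatEval M S) (eq_intCast MvPolynomial.C n)).trans
        (map_intCast (s31LatEval M S) n)
    rw [h1]
    have h2' : (n : Module.End ℤ (S31Lat M)) ψ = n • ψ := by
      simp
    rw [h2']
    exact (latNew M).smul_mem n hψ
  | add P Q hP hQ =>
    intro ψ hψ
    rw [map_add, LinearMap.add_apply]
    exact (latNew M).add_mem (hP ψ hψ) (hQ ψ hψ)
  | mul_X P ℓ hP =>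
    intro ψ hψ
    have h1 : s31LatEval M S (P * MvPolynomial.X ℓ) ψ
        = s31LatEval M S P (s31LatOp M S ℓ ψ) := by
      rw [map_mul, Module.End.mul_apply]
      congr 1
      exact DFunLike.congr_fun (s31LatEval_heckeGen M S ℓ) ψ
    rw [h1]
    exact hP _ (latNew_op_mem M S h2 ℓ hψ)

end Stable

section Rational

variable (M : ℕ) [NeZero M]

/-- **Rational structure of the new part**: if every integral new parabolic class vanishes at
`δ`, then so does every complex new parabolic class. -/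
theorem newRational (δ : ↥(Gamma0 M))
    (h : ∀ ψ : S31Lat M, ψ ∈ latNew M →
      (ψ : Additive ↥(Gamma0 M) →+ ℤ) (Additive.ofMul δ) = 0)
    (v : Additive ↥(Gamma0 M) →+ ℂ) (hv : IsParabolicHom (Gamma0 M) v)
    (hnew : IsNewCoh M v) : v (Additive.ofMul δ) = 0 := by
  by_contra hne
  haveI : Group.FG ↥(Gamma0 M) := Fermat.Agent.H50.gamma0_fg M
  obtain ⟨c, hc⟩ := Fermat.Agent.H70.exists_int_coordinate_of_ne_zero v δ hne
  refine hc ?_
  have hpar : IsParabolicHom (Gamma0 M) (c.comp v.rangeRestrict) := by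
    intro γ hγ
    have h0 : v.rangeRestrict (Additive.ofMul γ) = 0 := by
      apply Subtype.ext
      simpa using hv γ hγ
    simp [h0]
  have hn0 : IsNewCoh M v.rangeRestrict := by
    refine IsNewCoh.of_comp v.range.subtype Subtype.val_injective ?_
    have e : v.range.subtype.comp v.rangeRestrict = v := by
      ext γ
      rfl
    rw [e]
    exact hnew
  have hn1 : IsNewCoh M (c.comp v.rangeRestrict) := hn0.comp c
  have := h ⟨c.comp v.rangeRestrict, (mem_parabolicHoms_iff).mpr hpar⟩ hn1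
  simpa using this

end Rational

section Faithful

variable (M : ℕ) [NeZero M] (S : Finset ℕ)

/-- **Faithfulness on the new part**: a Hecke polynomial killing the lattice of new classes
kills every newform of level `M`. -/
theorem newFaithful (h3 : PeriodNewStatement) (g : CuspForm (Gamma0 M) 2) (hg : g.IsNewform)
    (P : HeckeAlg) (hP : ∀ ψ : S31Lat M, ψ ∈ latNew M → s31LatEval M S P ψ = 0) :
    Fermat.Agent.H79.s31Op M S P g = 0 := by
  have hzero : periodHomPair M (Fermat.Agent.H79.s31Op M S P g,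
      Fermat.Agent.H79.s31Op M S P g) = 0 := by
    refine AddMonoidHom.ext fun γ' => ?_
    obtain ⟨γ, rfl⟩ : ∃ γ : Gamma0 M, Additive.ofMul γ = γ' := ⟨Additive.toMul γ', rfl⟩
    obtain ⟨δ, h1, h2⟩ := Fermat.Agent.H79.exists_delta M S (s31LatEval M S)
      (fun ℓ hℓ hℓN hℓS ψ => by
        rw [s31LatEval_heckeGen]
        exact s31LatOp_of_good M S hℓ hℓN hℓS ψ)
      (fun ℓ hℓ h => by
        rw [s31LatEval_heckeGen]
        exact s31LatOp_of_not_good M S hℓ h) P γ
    rw [h2 g g]
    refine newRational M δ (fun ψ hψ => ?_) _ ?_ (h3 M g hg)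
    · have := h1 ψ
      rw [hP ψ hψ] at this
      exact this.symm
    · exact (mem_parabolicHoms_iff).mp
        (Fermat.Agent.H97.periodHomPair_mem_parabolicHoms M (g, g))
  have hinj := (Fermat.Agent.H21.EsC.eichlerShimura M).1 (hzero.trans (map_zero _).symm)
  exact congrArg Prod.fst hinj

/-- An element of the Hecke algebra away from `S ⊇ {q ∣ M}` acts on a normalised eigenform by
the character determined by its `q`-coefficients. -/
theorem heckeAlgebra_apply_eigen (g : CuspForm (Gamma0 M) 2) (hg : g.IsNormalizedEigenform)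
    (chig : CuspForm.heckeAlgebra M 2 (↑S : Set ℕ) →+* ℂ)
    (hchig : ∀ (ℓ : ℕ) (hℓ : ℓ.Prime) (hℓM : ¬ ℓ ∣ M) (hℓS : ℓ ∉ (↑S : Set ℕ)),
      chig (CuspForm.heckeAlgebra.T hℓ hℓM hℓS) = ModularFormClass.qCoeff g ℓ)
    (hMS : ∀ q : ℕ, q.Prime → q ∣ M → q ∈ S)
    (t : CuspForm.heckeAlgebra M 2 (↑S : Set ℕ)) :
    (t : Module.End ℂ (CuspForm (Gamma0 M) 2)) g = chig t • g := by
  obtain ⟨t, ht⟩ := t
  show t g = chig ⟨t, ht⟩ • g
  induction ht using Algebra.adjoin_induction with
  | mem x hx =>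
    rcases hx with ⟨ℓ, hℓ, hℓM, hℓS, rfl⟩ | ⟨q, hqM, hq, hqS, rfl⟩
    · have h1 := (Fermat.Agent.H50.eigenformHecke M g hg ℓ hℓ hℓM).1
      rw [h1, ← hchig ℓ hℓ hℓM hℓS]
      rfl
    · exact absurd (Finset.mem_coe.mpr (hMS q hq hqM)) hqS
  | algebraMap n =>
    have h1 : chig ⟨algebraMap ℤ (Module.End ℂ (CuspForm (Gamma0 M) 2)) n,
        Subalgebra.algebraMap_mem _ n⟩ = (n : ℂ) := by
      have h2 : (⟨algebraMap ℤ (Module.End ℂ (CuspForm (Gamma0 M) 2)) n,
          Subalgebra.algebraMap_mem _ n⟩ : CuspForm.heckeAlgebra M 2 (↑S : Set ℕ))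
          = ((n : ℤ) : CuspForm.heckeAlgebra M 2 (↑S : Set ℕ)) := by
        apply Subtype.ext
        simp
      rw [h2, map_intCast]
    rw [h1]
    have h3 : (algebraMap ℤ (Module.End ℂ (CuspForm (Gamma0 M) 2)) n) g = n • g := by
      simp
    rw [h3]
    exact (Int.cast_smul_eq_zsmul ℂ n g).symm
  | add x y hx hy ihx ihy =>
    have h1 : chig ⟨x + y, Subalgebra.add_mem _ hx hy⟩ = chig ⟨x, hx⟩ + chig ⟨y, hy⟩ := by
      rw [← map_add]
      rfl
    rw [LinearMap.add_apply, ihx, ihy, h1, add_smul]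
  | mul x y hx hy ihx ihy =>
    have h1 : chig ⟨x * y, Subalgebra.mul_mem _ hx hy⟩ = chig ⟨x, hx⟩ * chig ⟨y, hy⟩ := by
      rw [← map_mul]
      rfl
    rw [Module.End.mul_apply, ihy, map_smul, ihx, h1, smul_smul, mul_comm]

/-- **The faithfulness hypothesis of the occurrence lemma on the new lattice.** -/
theorem latNew_faithful (h3 : PeriodNewStatement) (g : CuspForm (Gamma0 M) 2)
    (hg : g.IsNewform) {O' : Type} [CommRing O']
    (chig : CuspForm.heckeAlgebra M 2 (↑S : Set ℕ) →+* ℂ)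
    (hchig : ∀ (ℓ : ℕ) (hℓ : ℓ.Prime) (hℓM : ¬ ℓ ∣ M) (hℓS : ℓ ∉ (↑S : Set ℕ)),
      chig (CuspForm.heckeAlgebra.T hℓ hℓM hℓS) = ModularFormClass.qCoeff g ℓ)
    (iota : chig.range →+* O')
    (hMS : ∀ q : ℕ, q.Prime → q ∣ M → q ∈ S)
    (P : HeckeAlg) (hP : ∀ ψ : S31Lat M, ψ ∈ latNew M → s31LatEval M S P ψ = 0) :
    MvPolynomial.aeval (fun ℓ => (iota.comp chig.rangeRestrict) (s31HeckeVal M S ℓ)) P = 0 := by
  set χ : CuspForm.heckeAlgebra M 2 (↑S : Set ℕ) →+* O' := iota.comp chig.rangeRestrict with hχ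
  have h1 := newFaithful M S h3 g hg P hP
  have h2 : chig (MvPolynomial.aeval (s31HeckeVal M S) P) = 0 := by
    have h4 := heckeAlgebra_apply_eigen M S g hg.1 chig hchig hMS
      (MvPolynomial.aeval (s31HeckeVal M S) P)
    have h5 : ((MvPolynomial.aeval (s31HeckeVal M S) P :
        CuspForm.heckeAlgebra M 2 (↑S : Set ℕ)) :
          Module.End ℂ (CuspForm (Gamma0 M) 2)) g = 0 := h1
    rw [h5] at h4
    rcases smul_eq_zero.mp h4.symm with h6 | h6
    · exact h6
    · exact absurd h6 hg.ne_zero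
  have h3' : MvPolynomial.aeval (fun ℓ => χ (s31HeckeVal M S ℓ)) =
      (χ.toIntAlgHom).comp (MvPolynomial.aeval (s31HeckeVal M S)) :=
    (MvPolynomial.comp_aeval (s31HeckeVal M S) χ.toIntAlgHom).symm
  rw [h3', AlgHom.comp_apply]
  show χ (MvPolynomial.aeval (s31HeckeVal M S) P) = 0
  rw [hχ, RingHom.comp_apply]
  have h7 : chig.rangeRestrict (MvPolynomial.aeval (s31HeckeVal M S) P) = 0 := by
    apply Subtype.ext
    exact h2
  rw [h7, map_zero]

end Faithful

end Fermat.Agent.H52.SS
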