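import Fermat.Agent.H52.SS.NewTors
import Fermat.Agent.H52.ESS36

/-!
# P-SS (S35) / P-SS2 (S36): the new-part eigenlattice and the two lattice statements

* `exists_newLattice` : for a newform `g` of level `M` and the character `iota ∘ chig` of the
  Hecke algebra away from `S`, a nonzero finite free `O'`-lattice `Λ` with adically continuous
  `G_ℚ`-action satisfying the Eichler–Shimura relations, on which every group-ring relation
  valid on the inertia invariants of `jNewTors M S lam` (the Hecke-stable NEW part of the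
  `lam`-power torsion of `J₀(M)`) holds (master transfer, bounded factors allowed).
  Inputs: rows (J2) `PushCohTStatement`, (J3) `PeriodNewStatement`, (J4) `KummerNewStatement`,
  and the (landed) torsion package of P-ES.
* `carayolLattice_of_jside` : `Fermat.Agent.H52.CarayolLatticeStatement` (hence the frozen S36
  by `Fermat.Agent.H52.s36_of_lattice`) from in addition (KC)_J `KCTorsionStatement`.
* `newformUnipChainLattice_of_jside` : `Fermat.Agent.H55.SS.NewformUnipChainLatticeStatement`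
  (hence the frozen S35 by `Fermat.Agent.H55.SS.newformLattice_of_unipChain` and
  `Fermat.Agent.H52.s35_of_lattice`) from in addition (u)_J `WeakUnipotentStatement` and
  (KT)_J `KTTorsionStatement`.
-/

set_option autoImplicit false
set_option linter.style.haveILetI false
set_option linter.unusedSectionVars false
set_option linter.unusedVariables false

noncomputable section

namespace Fermat.Agent.H52.SS

open AlgebraicCurve ModularCurve CongruenceSubgroup ModularCurve.Period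
open Fermat.Agent.H14 Fermat.Agent.H37 Fermat.Agent.H63.LR

/-- **The new-part eigenlattice.** -/
theorem exists_newLattice (h2 : PushCohTStatement) (h3 : PeriodNewStatement)
    (h4 : ∀ (M : ℕ) [NeZero M], KummerNewStatement M)
    (hGal : ∀ (N : ℕ) [NeZero N], Fermat.Agent.H36.HeckeGaloisTorsionStatement N)
    (hES : ∀ (N : ℕ) [NeZero N], Fermat.Agent.H36.EichlerShimuraRelStatement N)
    {M : ℕ} [NeZero M] {g : CuspForm (CongruenceSubgroup.Gamma0 M) 2} (hg : g.IsNewform)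
    (lam : ℕ) [Fact lam.Prime] (S : Finset ℕ)
    (O' : Type) [CommRing O'] [IsDomain O'] [IsDiscreteValuationRing O']
    [IsAdicComplete (IsLocalRing.maximalIdeal O') O'] [Finite (IsLocalRing.ResidueField O')]
    [CharZero O'] (hlamO' : (lam : O') ∈ IsLocalRing.maximalIdeal O')
    (chig : CuspForm.heckeAlgebra M 2 (↑S : Set ℕ) →+* ℂ)
    (hchig : ∀ (ℓ : ℕ) (hℓ : ℓ.Prime) (hℓM : ¬ ℓ ∣ M) (hℓS : ℓ ∉ (↑S : Set ℕ)),
      chig (CuspForm.heckeAlgebra.T hℓ hℓM hℓS) = ModularFormClass.qCoeff g ℓ)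
    (iota : chig.range →+* O')
    (hlamS : lam ∈ S) (hMS : ∀ q : ℕ, q.Prime → q ∣ M → q ∈ S) :
    ∃ (Λ : Type) (_ : AddCommGroup Λ) (_ : Module O' Λ) (_ : Module.Free O' Λ)
      (_ : Module.Finite O' Λ) (_ : Nontrivial Λ)
      (ρ : (AlgebraicClosure ℚ ≃ₐ[ℚ] AlgebraicClosure ℚ) →* Module.End O' Λ),
      GaloisActionIsAdicContinuous O' ρ ∧
      (∀ (ℓ : ℕ) (hℓ : ℓ.Prime) (hℓM : ¬ ℓ ∣ M) (hℓS : ℓ ∉ (↑S : Set ℕ)),
        ∀ A : ValuationSubring (AlgebraicClosure ℚ), A.LiesOverPrime ℓ →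
          ∀ σ : AlgebraicClosure ℚ ≃ₐ[ℚ] AlgebraicClosure ℚ, A.IsFrobeniusAt σ ℓ →
            ρ σ * ρ σ - (iota.comp chig.rangeRestrict) (CuspForm.heckeAlgebra.T hℓ hℓM hℓS) • ρ σ
              + (ℓ : O') • (1 : Module.End O' Λ) = 0) ∧
      (∀ (I : Set (AlgebraicClosure ℚ ≃ₐ[ℚ] AlgebraicClosure ℚ))
        (z : MonoidAlgebra ℤ (AlgebraicClosure ℚ ≃ₐ[ℚ] AlgebraicClosure ℚ)) (c : ℕ), c ≠ 0 →
        (∀ x ∈ jNewTors M S lam, (∀ τ ∈ I, τ • x = x) →
          c • MonoidAlgebra.lift ℤ (Module.End ℤ (JZero M))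
            (AlgebraicClosure ℚ ≃ₐ[ℚ] AlgebraicClosure ℚ)
            (DistribMulAction.toModuleEnd ℤ (JZero M)) z x = 0) →
        ∀ v : Λ, (∀ τ ∈ I, ρ τ v = v) →
          MonoidAlgebra.lift ℤ (Module.End O' Λ)
            (AlgebraicClosure ℚ ≃ₐ[ℚ] AlgebraicClosure ℚ) ρ z v = 0) ∧
      (∀ (I : Set (AlgebraicClosure ℚ ≃ₐ[ℚ] AlgebraicClosure ℚ)) (c : ℕ), c ≠ 0 →
        (∀ x ∈ jNewTors M S lam, (∀ τ ∈ I, τ • x = x) → c • x = 0) →
        ∀ v : Λ, (∀ τ ∈ I, ρ τ v = v) → v = 0) := by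
  have hpp : lam.Prime := Fact.out
  have hpk : ∀ k : ℕ, 0 < lam ^ k := fun k => pow_pos hpp.pos k
  -- finiteness of the torsion
  have hfin0 : ∀ k : ℕ, {x : JZero M | lam ^ k • x = 0}.Finite := by
    intro k
    have hF := Fermat.Agent.H23.EsA.finite_jTors M (hpk k)
    have hF' : (↑(Pic0.torsion (AlgebraicClosure ℚ) (modularFunctionFieldBar M) (lam ^ k)) :
        Set (JZero M)).Finite := Set.finite_coe_iff.mp hF
    refine hF'.subset ?_
    intro x hx
    show x ∈ Pic0.torsion (AlgebraicClosure ℚ) (modularFunctionFieldBar M) (lam ^ k)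
    rw [Pic0.mem_torsion, natCast_zsmul]
    exact hx
  obtain ⟨Λ, i1, i2, i3, i4, i5, ρ, c1, -, c3, c4, c5⟩ :=
    exists_lattice_of_subgroup lam (AlgebraicClosure ℚ ≃ₐ[ℚ] AlgebraicClosure ℚ) (JZero M)
      (jNewTors M S lam)
      (fun σ x hx => smul_mem_jNewTors hpp.pos (hGal M) σ x hx)
      (fun x hx => torsion_of_mem_jNewTors hx)
      Nat.Primes (esJOp M S)
      (fun ℓ x hx => esJOp_mem_jNewTors ℓ x hx)
      (fun ℓ σ x hx => esJOp_smul_of_mem hpp.pos (hGal M) ℓ σ x hx)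
      hfin0 O' hlamO'
      (fun ℓ => (iota.comp chig.rangeRestrict) (s31HeckeVal M S ℓ))
      ↥(latNew M) (latNewEval M S h2)
      (fun P hP => latNew_faithful M S h3 g hg chig hchig iota hMS P
        (latNewEval_eq_zero M S h2 P hP))
      (fun k => exists_kummer_new M S h2 (h4 M) lam hpp.pos k)
  refine ⟨Λ, i1, i2, i3, i4, i5, ρ, ?_, ?_, c4, c5⟩
  · -- adic continuity
    intro n
    haveI := Fermat.Agent.H23.EsA.finite_jTors M (hpk n)
    obtain ⟨L, hL, h⟩ := Fermat.Agent.H53.jZero_torsion_finiteLevel' M (lam ^ n)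
    exact ⟨L, hL, fun σ hσ v => c1 n σ (fun x _ hx => h σ hσ x hx) v⟩
  · -- the Eichler–Shimura relation
    intro ℓ hℓ hℓM hℓS A hA σ hσ
    have hℓp : ℓ ≠ lam := fun h => hℓS (h ▸ Finset.mem_coe.mpr hlamS)
    have := c3 σ ⟨ℓ, hℓ⟩ ℓ (fun x hx => by
      obtain ⟨k, hk⟩ := torsion_of_mem_jNewTors hx
      rw [esJOp_of_good M S hℓ hℓM hℓS]
      exact hES M ℓ hℓ hℓM (lam ^ k) (hpk k) (not_dvd_prime_pow hpp hℓ hℓp k) A hA σ hσ x hk)
    rw [s31HeckeVal_of_good M S hℓ hℓM hℓS] at this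
    exact this

/-! ## Transport of the torsion statements along `M = N q` -/

section Cast

theorem castJ_injective {M M' : ℕ} (h : M = M') : Function.Injective (castJ h) := by
  subst h
  exact fun _ _ h => h

theorem castJ_ktThetaAdd {M M' : ℕ} (h : M = M')
    (φ : AlgebraicClosure ℚ ≃ₐ[ℚ] AlgebraicClosure ℚ) (Q : ℕ) (x : JZero M) :
    castJ h (ktThetaAdd (fun y : JZero M => φ • φ • y) Q x)
      = ktThetaAdd (fun y : JZero M' => φ • φ • y) Q (castJ h x) := by
  subst h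
  rfl

end Cast

/-- The action of `(φ² - q²)² (φ² - 1)²` on `J₀(M)` is `ktThetaAdd`. -/
theorem lift_ktElt_jZero (M : ℕ) (φ : AlgebraicClosure ℚ ≃ₐ[ℚ] AlgebraicClosure ℚ) (q : ℕ)
    (x : JZero M) :
    MonoidAlgebra.lift ℤ (Module.End ℤ (JZero M)) (AlgebraicClosure ℚ ≃ₐ[ℚ] AlgebraicClosure ℚ)
      (DistribMulAction.toModuleEnd ℤ (JZero M)) (Fermat.Agent.H55.SS.ktElt φ q) x
      = ktThetaAdd (fun y : JZero M => φ • φ • y) (q ^ 2) x := by
  rw [Fermat.Agent.H55.SS.lift_ktElt]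
  have e1 : ∀ y : JZero M,
      (DistribMulAction.toModuleEnd ℤ (JZero M) φ * DistribMulAction.toModuleEnd ℤ (JZero M) φ
        - ((q : Module.End ℤ (JZero M)) * q)) y = ktQuotAdd (fun y => φ • φ • y) (q ^ 2) y := by
    intro y
    unfold ktQuotAdd
    rw [LinearMap.sub_apply, Module.End.mul_apply, Module.End.mul_apply]
    have h1 : (q : Module.End ℤ (JZero M)) ((q : Module.End ℤ (JZero M)) y) = (q ^ 2) • y := by
      rw [Module.End.natCast_apply, Module.End.natCast_apply, pow_two, mul_smul]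
    rw [h1]
    rfl
  have e2 : ∀ y : JZero M,
      (DistribMulAction.toModuleEnd ℤ (JZero M) φ * DistribMulAction.toModuleEnd ℤ (JZero M) φ
        - 1) y = ktQuotAdd (fun y => φ • φ • y) 1 y := by
    intro y
    unfold ktQuotAdd
    rw [LinearMap.sub_apply, Module.End.mul_apply, Module.End.one_apply, one_smul]
    rfl
  unfold ktThetaAdd
  rw [pow_two, pow_two, Module.End.mul_apply, Module.End.mul_apply, Module.End.mul_apply,
    e1, e1, e2, e2]

/-- **S36 (lattice form) from the `J`-side statements.** -/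
theorem carayolLattice_of_jside (h2 : PushCohTStatement) (h3 : PeriodNewStatement)
    (h4 : ∀ (M : ℕ) [NeZero M], KummerNewStatement M)
    (hGal : ∀ (N : ℕ) [NeZero N], Fermat.Agent.H36.HeckeGaloisTorsionStatement N)
    (hES : ∀ (N : ℕ) [NeZero N], Fermat.Agent.H36.EichlerShimuraRelStatement N)
    (hKC : KCTorsionStatement) : Fermat.Agent.H52.CarayolLatticeStatement := by
  intro M _ g hg lam _ S O' _ _ _ _ _ _ hlamO' hlam2 chig hchig iota hlamS hMS _
  obtain ⟨Λ, i1, i2, i3, i4, i5, ρ, hcont, hrel, -, hnoinv⟩ :=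
    exists_newLattice h2 h3 h4 hGal hES hg lam S O' hlamO' chig hchig iota hlamS hMS
  refine ⟨Λ, i1, i2, i3, i4, i5, ρ, hcont, hrel, ?_⟩
  intro q hq hqlam hq2
  have hpp : lam.Prime := Fact.out
  -- `M = N q` with `q ∥ N`
  have hM0 : M ≠ 0 := NeZero.ne M
  have hqqM : q ^ 2 ∣ M := by
    have := Nat.ordProj_dvd M q
    rwa [hq2] at this
  have hqM : q ∣ M := dvd_trans (dvd_pow_self q two_ne_zero) hqqM
  obtain ⟨N, hN⟩ : ∃ N : ℕ, M = N * q := ⟨M / q, (Nat.div_mul_cancel hqM).symm⟩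
  have hN0 : N ≠ 0 := fun h0 => hM0 (by rw [hN, h0, zero_mul])
  haveI : NeZero N := ⟨hN0⟩
  haveI : NeZero q := ⟨hq.ne_zero⟩
  have hqN : q ∣ N := by
    have h1 : q * q ∣ N * q := by
      rw [← hN, ← pow_two]
      exact hqqM
    exact Nat.dvd_of_mul_dvd_mul_right hq.pos h1
  have hq2N : ¬ q ^ 2 ∣ N := by
    intro hd
    have h1 : q ^ 3 ∣ M := by
      rw [hN, pow_succ]
      exact Nat.mul_dvd_mul hd dvd_rfl
    have h2' := (hq.pow_dvd_iff_le_factorization hM0).mp h1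
    omega
  obtain ⟨A, hA, c, hc, hKCA⟩ := hKC N q hq hqN hq2N lam hpp (Ne.symm hqlam)
  refine ⟨A, hA, hnoinv (↑(A.inertiaSubgroupIn ℚ)) c hc (fun x hx hfix => ?_)⟩
  have hnew := isNewClass_of_mem_jNewTors hx N q hq hN
  obtain ⟨k, hk⟩ := torsion_of_mem_jNewTors hx
  have h5 := hKCA (castJ hN x) ⟨k, by rw [← map_nsmul, hk, map_zero]⟩ hnew.1 hnew.2
    (fun τ hτ => by rw [← castJ_smul, hfix τ hτ])
  rw [← map_nsmul] at h5
  exact castJ_injective hN (h5.trans (map_zero _).symm)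

/-- **S35 (lattice form) from the `J`-side statements.** -/
theorem newformUnipChainLattice_of_jside (h2 : PushCohTStatement) (h3 : PeriodNewStatement)
    (h4 : ∀ (M : ℕ) [NeZero M], KummerNewStatement M)
    (hGal : ∀ (N : ℕ) [NeZero N], Fermat.Agent.H36.HeckeGaloisTorsionStatement N)
    (hES : ∀ (N : ℕ) [NeZero N], Fermat.Agent.H36.EichlerShimuraRelStatement N)
    (hu : WeakUnipotentStatement) (hKT : KTTorsionStatement) :
    Fermat.Agent.H55.SS.NewformUnipChainLatticeStatement := by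
  intro M _ g hg lam _ S O' _ _ _ _ _ _ hlamO' chig hchig iota hlamS hMS
  obtain ⟨Λ, i1, i2, i3, i4, i5, ρ, hcont, hrel, hmaster, -⟩ :=
    exists_newLattice h2 h3 h4 hGal hES hg lam S O' hlamO' chig hchig iota hlamS hMS
  refine ⟨Λ, i1, i2, i3, i4, i5, ρ, hcont, hrel, ?_⟩
  intro q hq hqlam hqM hq2 A hA
  have hpp : lam.Prime := Fact.out
  have hM0 : M ≠ 0 := NeZero.ne M
  refine ⟨?_, ?_⟩
  · -- (u): unipotent inertia
    intro τ hτ
    obtain ⟨c, hc, hcu⟩ := hu M q lam hq hpp hqlam hqM hq2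
    set z : MonoidAlgebra ℤ (AlgebraicClosure ℚ ≃ₐ[ℚ] AlgebraicClosure ℚ) :=
      (MonoidAlgebra.of ℤ _ τ - 1) * (MonoidAlgebra.of ℤ _ τ - 1) with hz
    have hJ : ∀ x : JZero M,
        MonoidAlgebra.lift ℤ (Module.End ℤ (JZero M)) (AlgebraicClosure ℚ ≃ₐ[ℚ] AlgebraicClosure ℚ)
          (DistribMulAction.toModuleEnd ℤ (JZero M)) z x = τ • τ • x - 2 • (τ • x) + x := by
      intro x
      rw [hz, map_mul, map_sub, map_one, MonoidAlgebra.lift_of, Module.End.mul_apply,
        LinearMap.sub_apply, LinearMap.sub_apply, Module.End.one_apply, Module.End.one_apply]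
      show τ • (τ • x - x) - (τ • x - x) = τ • τ • x - 2 • (τ • x) + x
      rw [smul_sub (A := JZero M) τ, two_smul]
      abel
    have hΛ : ∀ v : Λ,
        MonoidAlgebra.lift ℤ (Module.End O' Λ) (AlgebraicClosure ℚ ≃ₐ[ℚ] AlgebraicClosure ℚ) ρ z v
          = ((ρ τ - 1) * (ρ τ - 1)) v := by
      intro v
      rw [hz, map_mul, map_sub, map_one, MonoidAlgebra.lift_of]
    refine LinearMap.ext fun v => ?_
    rw [← hΛ v, LinearMap.zero_apply]
    refine hmaster ∅ z c hc (fun x hx _ => ?_) v (fun τ' hτ' => absurd hτ' (Set.notMem_empty τ'))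
    obtain ⟨k, hk⟩ := torsion_of_mem_jNewTors hx
    rw [hJ x]
    exact hcu A hA τ hτ k x hk
  · -- (KT): the chain identity on the inertia invariants
    intro φ hφ v hv
    obtain ⟨N, hN⟩ : ∃ N : ℕ, M = N * q := ⟨M / q, (Nat.div_mul_cancel hqM).symm⟩
    have hN0 : N ≠ 0 := fun h0 => hM0 (by rw [hN, h0, zero_mul])
    haveI : NeZero N := ⟨hN0⟩
    haveI : NeZero q := ⟨hq.ne_zero⟩
    have hqN : ¬ q ∣ N := by
      intro hd
      apply hq2
      rw [hN, pow_two]
      exact Nat.mul_dvd_mul hd dvd_rfl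
    obtain ⟨c, hc, hKTA⟩ := hKT N q hq hqN lam hpp (Ne.symm hqlam) A hA φ hφ
    rw [← Fermat.Agent.H55.SS.lift_ktElt_apply ρ φ q v]
    refine hmaster (↑(A.inertiaSubgroupIn ℚ)) (Fermat.Agent.H55.SS.ktElt φ q) c hc
      (fun x hx hfix => ?_) v hv
    have hnew := isNewClass_of_mem_jNewTors hx N q hq hN
    obtain ⟨k, hk⟩ := torsion_of_mem_jNewTors hx
    have h5 := hKTA (castJ hN x) ⟨k, by rw [← map_nsmul, hk, map_zero]⟩ hnew.1 hnew.2
      (fun τ hτ => by rw [← castJ_smul, hfix τ hτ])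
    rw [lift_ktElt_jZero]
    rw [← castJ_ktThetaAdd, ← map_nsmul] at h5
    exact castJ_injective hN (h5.trans (map_zero _).symm)

end Fermat.Agent.H52.SS
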