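import Fermat.Agent.H49.ES.EsCAdapters
import Fermat.Agent.H49.ES.GalHecke
import Fermat.Agent.H71.SS.LevelMap

/-!
# P-SS / P-SS2, lattice side: the degeneracy push-forwards on `J₀` and the new part

* generic: `pic0PushforwardAlong φ` : `Pic⁰(F') → Pic⁰(F)` for a finite `φ : F →ₐ[K] F'` with the
  norm formula; equivariance for intertwined semilinear automorphisms;
* modular: `jPushA N q`, `jPushB N q : J₀(N q) →+ J₀(N)` (push-forward of divisor classes along
  the two degeneracy maps `α` (inclusion) and `β` (`t ↦ t^q`) of the prelude), for every prime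
  `q` (dividing `N` or not); both are Galois equivariant.
-/

set_option autoImplicit false
set_option synthInstance.maxHeartbeats 400000
set_option linter.style.haveILetI false
set_option linter.unusedSectionVars false
set_option linter.unusedVariables false

noncomputable section

namespace Fermat.Agent.H52.SS

open AlgebraicCurve ModularCurve

section Generic

variable {K F F' : Type*} [Field K] [Field F] [Field F'] [Algebra K F] [Algebra K F']
variable (φ : F →ₐ[K] F') (hφ : φ.toRingHom.IsIntegral)
variable (hfin : FiniteAlong K φ) (hN : NormFormulaAlong K φ hfin)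

/-- Push-forward of divisors of degree zero. -/
def degZeroPushforwardAlong :
    Divisor.degZero (K := K) (F := F') →+ Divisor.degZero (K := K) (F := F) :=
  ((Divisor.pushforwardAlong φ hφ).comp (Divisor.degZero (K := K) (F := F')).subtype).codRestrict _
    (fun D => Divisor.pushforwardAlong_mem_degZero φ hφ D.2)

@[simp]
theorem coe_degZeroPushforwardAlong (D : Divisor.degZero (K := K) (F := F')) :
    (degZeroPushforwardAlong φ hφ D : Divisor K F) =
      Divisor.pushforwardAlong φ hφ (D : Divisor K F') :=
  rfl

/-- Push-forward of divisor classes of degree zero. -/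
def pic0PushforwardAlong : Pic0 K F' →+ Pic0 K F :=
  QuotientAddGroup.map _ _ (degZeroPushforwardAlong φ hφ) (by
    rintro ⟨D, hD0⟩ hD
    simp only [AddSubgroup.mem_addSubgroupOf] at hD ⊢
    exact Divisor.isPrincipal_pushforwardAlong φ hφ hfin hN hD)

theorem pic0PushforwardAlong_mk (D : Divisor.degZero (K := K) (F := F')) :
    pic0PushforwardAlong φ hφ hfin hN (Pic0.mk D) = Pic0.mk (degZeroPushforwardAlong φ hφ D) :=
  rfl

/-- The push-forward is equivariant for a pair of intertwined semilinear automorphisms. -/
theorem pic0PushforwardAlong_smul {g : SemilinearAut K F} {g' : SemilinearAut K F'}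
    (h : SemilinearAut.IntertwinesAlong φ.toRingHom g g') (x : Pic0 K F') :
    pic0PushforwardAlong φ hφ hfin hN (g' • x) = g • pic0PushforwardAlong φ hφ hfin hN x := by
  obtain ⟨D, rfl⟩ := Pic0.mk_surjective x
  rw [SemilinearAut.pic0_smul_mk, pic0PushforwardAlong_mk, pic0PushforwardAlong_mk,
    SemilinearAut.pic0_smul_mk]
  refine congrArg Pic0.mk (Subtype.ext ?_)
  rw [coe_degZeroPushforwardAlong, SemilinearAut.coe_degZeroSMulHom,
    SemilinearAut.coe_degZeroSMulHom, coe_degZeroPushforwardAlong]
  exact Fermat.Agent.H49.pushforwardAlong_smul_of_intertwines φ hφ h (D : Divisor K F')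

end Generic

section Modular

variable (N q : ℕ) [NeZero N] [NeZero q]

/-- The push-forward `α_* : J₀(N q) → J₀(N)` along the first degeneracy map (inclusion of
function fields). -/
def jPushA (hq : q.Prime) : JZero (N * q) →+ JZero N :=
  pic0PushforwardAlong (heckeAlphaBar (AlgebraicClosure ℚ) N q)
    (Fermat.Agent.H49.isIntegral_of_finiteAlong _
      (Fermat.Agent.H54.degeneracyFinite (AlgebraicClosure ℚ) N q hq).1)
    (Fermat.Agent.H54.degeneracyFinite (AlgebraicClosure ℚ) N q hq).1
    (Fermat.Agent.H49.normFormulaAlong_of_finite _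
      (Fermat.Agent.H54.degeneracyFinite (AlgebraicClosure ℚ) N q hq).1)

/-- The push-forward `β_* : J₀(N q) → J₀(N)` along the second degeneracy map (`t ↦ t ^ q`). -/
def jPushB (hq : q.Prime) : JZero (N * q) →+ JZero N :=
  pic0PushforwardAlong (heckeBetaBar (AlgebraicClosure ℚ) N q)
    (Fermat.Agent.H49.isIntegral_of_finiteAlong _
      (Fermat.Agent.H54.degeneracyFinite (AlgebraicClosure ℚ) N q hq).2)
    (Fermat.Agent.H54.degeneracyFinite (AlgebraicClosure ℚ) N q hq).2
    (Fermat.Agent.H49.normFormulaAlong_of_finite _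
      (Fermat.Agent.H54.degeneracyFinite (AlgebraicClosure ℚ) N q hq).2)

/-- `α_*` is Galois equivariant. -/
theorem jPushA_smul (hq : q.Prime) (σ : AlgebraicClosure ℚ ≃ₐ[ℚ] AlgebraicClosure ℚ)
    (x : JZero (N * q)) : jPushA N q hq (σ • x) = σ • jPushA N q hq x := by
  rw [galois_smul_pic0_def, galois_smul_pic0_def]
  exact pic0PushforwardAlong_smul _ _ _ _
    (Fermat.Agent.H49.intertwines_heckeAlphaBar (AlgebraicClosure ℚ) N q σ) x

/-- `β_*` is Galois equivariant. -/
theorem jPushB_smul (hq : q.Prime) (σ : AlgebraicClosure ℚ ≃ₐ[ℚ] AlgebraicClosure ℚ)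
    (x : JZero (N * q)) : jPushB N q hq (σ • x) = σ • jPushB N q hq x := by
  rw [galois_smul_pic0_def, galois_smul_pic0_def]
  exact pic0PushforwardAlong_smul _ _ _ _
    (Fermat.Agent.H49.intertwines_heckeBetaBar (AlgebraicClosure ℚ) N q σ) x

end Modular

end Fermat.Agent.H52.SS
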