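import Fermat.Agent.H52.SS.NewFaithful
import Fermat.Agent.H52.SS.LatticeAbs

/-!
# P-SS / P-SS2, `J`-side: the Hecke-stable new part of the `p`-power torsion of `J₀(M)`

* `jHeckeWords M S` : the ring of endomorphisms of `J₀(M)` generated by the good Hecke operators;
* `jNewTors M S p` : the subgroup of `p`-power torsion classes `x` such that `t x` is new for
  every `t ∈ jHeckeWords M S`; it is stable under the Galois group and the good Hecke operators;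
* `latNewEval` : the action of the formal Hecke algebra on the new lattice;
* `exists_kummer_new` : the Kummer maps `latNew M → jNewTors M S p`.
-/

set_option autoImplicit false
set_option linter.style.haveILetI false
set_option linter.unusedSectionVars false
set_option linter.unusedVariables false

noncomputable section

namespace Fermat.Agent.H52.SS

open AlgebraicCurve ModularCurve CongruenceSubgroup ModularCurve.Period
open Fermat.Agent.H14 Fermat.Agent.H37 Fermat.Agent.H63.LR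

section Words

variable (M : ℕ) [NeZero M] (S : Finset ℕ)

/-- The ring of endomorphisms of `J₀(M)` generated by the good Hecke operators
(`T_ℓ`, `ℓ ∤ M`, `ℓ ∉ S`). -/
def jHeckeWords : Subalgebra ℤ (Module.End ℤ (JZero M)) :=
  Algebra.adjoin ℤ (Set.range fun ℓ : Nat.Primes => (esJOp M S ℓ).toIntLinearMap)

theorem esJOp_mem_jHeckeWords (ℓ : Nat.Primes) :
    (esJOp M S ℓ).toIntLinearMap ∈ jHeckeWords M S :=
  Algebra.subset_adjoin ⟨ℓ, rfl⟩

/-- The Hecke words commute with the Galois action on torsion classes. -/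
theorem jHeckeWords_smul (hGal : Fermat.Agent.H36.HeckeGaloisTorsionStatement M)
    (σ : AlgebraicClosure ℚ ≃ₐ[ℚ] AlgebraicClosure ℚ) (n : ℕ) (hn : 0 < n)
    (t : Module.End ℤ (JZero M)) (ht : t ∈ jHeckeWords M S) :
    ∀ x : JZero M, n • x = 0 → t (σ • x) = σ • t x := by
  induction ht using Algebra.adjoin_induction with
  | mem t ht =>
    obtain ⟨⟨ℓ, hℓ⟩, rfl⟩ := ht
    intro x hx
    show esJOp M S ⟨ℓ, hℓ⟩ (σ • x) = σ • esJOp M S ⟨ℓ, hℓ⟩ x
    by_cases h : ¬ ℓ ∣ M ∧ ℓ ∉ (↑S : Set ℕ)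
    · rw [esJOp_of_good M S hℓ h.1 h.2, esJOp_of_good M S hℓ h.1 h.2]
      exact hGal ℓ hℓ h.1 σ n hn x hx
    · rw [esJOp_of_not_good M S hℓ h, AddMonoidHom.zero_apply, AddMonoidHom.zero_apply]
      exact (smul_zero (A := JZero M) σ).symm
  | algebraMap r =>
    intro x hx
    have h1 : ∀ y : JZero M, (algebraMap ℤ (Module.End ℤ (JZero M)) r) y = r • y := by
      intro y
      simp
    rw [h1, h1]
    exact (map_zsmul (DistribSMul.toAddMonoidHom (JZero M) σ) r x).symm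
  | add t₁ t₂ _ _ ih₁ ih₂ =>
    intro x hx
    rw [LinearMap.add_apply, LinearMap.add_apply, ih₁ x hx, ih₂ x hx]
    exact (smul_add (A := JZero M) σ _ _).symm
  | mul t₁ t₂ _ _ ih₁ ih₂ =>
    intro x hx
    rw [Module.End.mul_apply, Module.End.mul_apply, ih₂ x hx]
    refine ih₁ (t₂ x) ?_
    rw [← map_nsmul, hx, map_zero]

end Words

section NewTors

variable (M : ℕ) [NeZero M] (S : Finset ℕ) (p : ℕ)

/-- The Hecke-stable new part of the `p`-power torsion of `J₀(M)`. -/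
def jNewTors : AddSubgroup (JZero M) where
  carrier := {x | x ∈ ppTors (JZero M) p ∧ ∀ t ∈ jHeckeWords M S, IsNewClass M (t x)}
  zero_mem' := ⟨(ppTors (JZero M) p).zero_mem, fun t _ => by
    rw [map_zero]
    exact isNewClass_zero M⟩
  add_mem' := fun {x y} hx hy => ⟨(ppTors (JZero M) p).add_mem hx.1 hy.1, fun t ht => by
    rw [map_add]
    exact (hx.2 t ht).add (hy.2 t ht)⟩
  neg_mem' := fun {x} hx => ⟨(ppTors (JZero M) p).neg_mem hx.1, fun t ht => by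
    rw [map_neg]
    exact (hx.2 t ht).neg⟩

variable {M S p}

theorem mem_jNewTors {x : JZero M} :
    x ∈ jNewTors M S p ↔
      (∃ k : ℕ, p ^ k • x = 0) ∧ ∀ t ∈ jHeckeWords M S, IsNewClass M (t x) := Iff.rfl

/-- Elements of `jNewTors` are new. -/
theorem isNewClass_of_mem_jNewTors {x : JZero M} (hx : x ∈ jNewTors M S p) :
    IsNewClass M x := by
  have := hx.2 1 (Subalgebra.one_mem _)
  exact this

theorem torsion_of_mem_jNewTors {x : JZero M} (hx : x ∈ jNewTors M S p) :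
    ∃ k : ℕ, p ^ k • x = 0 := hx.1

/-- `jNewTors` is stable under the Galois group. -/
theorem smul_mem_jNewTors (hp : 0 < p) (hGal : Fermat.Agent.H36.HeckeGaloisTorsionStatement M)
    (σ : AlgebraicClosure ℚ ≃ₐ[ℚ] AlgebraicClosure ℚ) (x : JZero M)
    (hx : x ∈ jNewTors M S p) : σ • x ∈ jNewTors M S p := by
  obtain ⟨⟨k, hk⟩, hnew⟩ := hx
  refine ⟨⟨k, ?_⟩, fun t ht => ?_⟩
  · rw [smul_comm, hk]
    exact smul_zero (A := JZero M) σ
  · rw [jHeckeWords_smul M S hGal σ (p ^ k) (pow_pos hp k) t ht x hk]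
    exact (hnew t ht).smul σ

/-- `jNewTors` is stable under the good Hecke operators. -/
theorem esJOp_mem_jNewTors (ℓ : Nat.Primes) (x : JZero M) (hx : x ∈ jNewTors M S p) :
    esJOp M S ℓ x ∈ jNewTors M S p := by
  obtain ⟨⟨k, hk⟩, hnew⟩ := hx
  refine ⟨⟨k, ?_⟩, fun t ht => ?_⟩
  · rw [← map_nsmul, hk, map_zero]
  · exact hnew (t * (esJOp M S ℓ).toIntLinearMap)
      (Subalgebra.mul_mem _ ht (esJOp_mem_jHeckeWords M S ℓ))

/-- On `jNewTors` the good Hecke operators commute with the Galois action. -/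
theorem esJOp_smul_of_mem (hp : 0 < p) (hGal : Fermat.Agent.H36.HeckeGaloisTorsionStatement M)
    (ℓ : Nat.Primes) (σ : AlgebraicClosure ℚ ≃ₐ[ℚ] AlgebraicClosure ℚ) (x : JZero M)
    (hx : x ∈ jNewTors M S p) : esJOp M S ℓ (σ • x) = σ • esJOp M S ℓ x := by
  obtain ⟨⟨k, hk⟩, -⟩ := hx
  exact jHeckeWords_smul M S hGal σ (p ^ k) (pow_pos hp k) _ (esJOp_mem_jHeckeWords M S ℓ) x hk

end NewTors

section Eval

variable (M : ℕ) [NeZero M] (S : Finset ℕ)

/-- The action of the formal Hecke algebra on the new lattice. -/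
def latNewEval (h2 : PushCohTStatement) : HeckeAlg →+* Module.End ℤ ↥(latNew M) where
  toFun P := (s31LatEval M S P).restrict (latNew_eval_mem M S h2 P)
  map_one' := by
    refine LinearMap.ext fun ψ => Subtype.ext ?_
    rw [LinearMap.coe_restrict_apply, map_one]
    rfl
  map_mul' P Q := by
    refine LinearMap.ext fun ψ => Subtype.ext ?_
    rw [LinearMap.coe_restrict_apply, map_mul]
    rfl
  map_zero' := by
    refine LinearMap.ext fun ψ => Subtype.ext ?_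
    rw [LinearMap.coe_restrict_apply, map_zero]
    rfl
  map_add' P Q := by
    refine LinearMap.ext fun ψ => Subtype.ext ?_
    rw [LinearMap.coe_restrict_apply, map_add]
    rfl

theorem coe_latNewEval (h2 : PushCohTStatement) (P : HeckeAlg) (ψ : ↥(latNew M)) :
    ((latNewEval M S h2 P ψ : ↥(latNew M)) : S31Lat M) = s31LatEval M S P (ψ : S31Lat M) :=
  rfl

theorem latNewEval_eq_zero (h2 : PushCohTStatement) (P : HeckeAlg)
    (hP : latNewEval M S h2 P = 0) :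
    ∀ ψ : S31Lat M, ψ ∈ latNew M → s31LatEval M S P ψ = 0 := by
  intro ψ hψ
  have := congrArg (fun f : Module.End ℤ ↥(latNew M) =>
    ((f ⟨ψ, hψ⟩ : ↥(latNew M)) : S31Lat M)) hP
  exact this

end Eval

section Kummer

variable (M : ℕ) [NeZero M] (S : Finset ℕ)

/-- Newness of integral classes can be divided by a nonzero integer. -/
theorem IsNewCoh.of_nsmul {n : ℕ} (hn : n ≠ 0) {ψ : Additive ↥(Gamma0 M) →+ ℤ}
    (hψ : IsNewCoh M (n • ψ)) : IsNewCoh M ψ := by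
  intro N q hq h
  have h1 := hψ N q hq h
  have key : ∀ (j : ↥(Gamma0 (N * q)) →* ↥(Gamma0 N)),
      pushHom j ℤ (castH ℤ h (n • ψ)) = 0 → pushHom j ℤ (castH ℤ h ψ) = 0 := by
    intro j hj
    have e : pushHom j ℤ (castH ℤ h (n • ψ)) = n • pushHom j ℤ (castH ℤ h ψ) := by
      rw [map_nsmul]
      exact map_nsmul (pushHomAdd j ℤ) n _
    rw [e] at hj
    refine AddMonoidHom.ext fun γ => ?_
    have h2 := DFunLike.congr_fun hj γ
    rw [AddMonoidHom.nsmul_apply, AddMonoidHom.zero_apply, nsmul_eq_mul] at h2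
    rcases mul_eq_zero.mp h2 with h3 | h3
    · exact absurd (by exact_mod_cast h3) hn
    · exact h3
  exact ⟨key _ h1.1, key _ h1.2⟩

/-- The Hecke words act on the Kummer image of the new lattice through the new lattice. -/
theorem exists_latNew_of_word (h2 : PushCohTStatement) (κ : S31Lat M →+ JZero M)
    (hκ : ∀ (ℓ : ℕ) (hℓ : ℓ.Prime) (hℓN : ¬ ℓ ∣ M) (ψ ψ' : S31Lat M),
      (ψ' : Additive ↥(Gamma0 M) →+ ℤ)
          = Fermat.Agent.H21.cohT M ℓ hℓ hℓN ℤ (ψ : Additive ↥(Gamma0 M) →+ ℤ) →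
        κ ψ' = heckeOperatorBar M ⟨ℓ, hℓ⟩ (κ ψ))
    (t : Module.End ℤ (JZero M)) (ht : t ∈ jHeckeWords M S) :
    ∀ ψ : S31Lat M, ψ ∈ latNew M → ∃ ψ' : S31Lat M, ψ' ∈ latNew M ∧ t (κ ψ) = κ ψ' := by
  induction ht using Algebra.adjoin_induction with
  | mem t ht =>
    obtain ⟨⟨ℓ, hℓ⟩, rfl⟩ := ht
    intro ψ hψ
    refine ⟨s31LatOp M S ⟨ℓ, hℓ⟩ ψ, latNew_op_mem M S h2 ⟨ℓ, hℓ⟩ hψ, ?_⟩
    show esJOp M S ⟨ℓ, hℓ⟩ (κ ψ) = κ (s31LatOp M S ⟨ℓ, hℓ⟩ ψ)
    by_cases h : ¬ ℓ ∣ M ∧ ℓ ∉ (↑S : Set ℕ)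
    · rw [esJOp_of_good M S hℓ h.1 h.2]
      exact (hκ ℓ hℓ h.1 ψ _ (s31LatOp_of_good M S hℓ h.1 h.2 ψ)).symm
    · rw [esJOp_of_not_good M S hℓ h, s31LatOp_of_not_good M S hℓ h,
        AddMonoidHom.zero_apply, LinearMap.zero_apply, map_zero]
  | algebraMap r =>
    intro ψ hψ
    refine ⟨r • ψ, (latNew M).smul_mem r hψ, ?_⟩
    have h1 : (algebraMap ℤ (Module.End ℤ (JZero M)) r) (κ ψ) = r • κ ψ := by
      simp
    rw [h1, map_zsmul]
  | add t₁ t₂ _ _ ih₁ ih₂ =>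
    intro ψ hψ
    obtain ⟨ψ₁, hψ₁, e₁⟩ := ih₁ ψ hψ
    obtain ⟨ψ₂, hψ₂, e₂⟩ := ih₂ ψ hψ
    exact ⟨ψ₁ + ψ₂, (latNew M).add_mem hψ₁ hψ₂, by
      rw [LinearMap.add_apply, e₁, e₂, map_add]⟩
  | mul t₁ t₂ _ _ ih₁ ih₂ =>
    intro ψ hψ
    obtain ⟨ψ₂, hψ₂, e₂⟩ := ih₂ ψ hψ
    obtain ⟨ψ₁, hψ₁, e₁⟩ := ih₁ ψ₂ hψ₂
    exact ⟨ψ₁, hψ₁, by rw [Module.End.mul_apply, e₂, e₁]⟩

/-- **The Kummer maps on the new lattice**, in the shape of
`Fermat.Agent.H52.SS.exists_lattice_of_subgroup`. -/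
theorem exists_kummer_new (h2 : PushCohTStatement) (h4 : KummerNewStatement M)
    (p : ℕ) (hp : 0 < p) (k : ℕ) :
    ∃ κ : ↥(latNew M) →+ JZero M, (∀ ψ : ↥(latNew M), κ ψ ∈ jNewTors M S p) ∧
      (∀ ψ : ↥(latNew M), p ^ (k + 1) • κ ψ = 0) ∧
      (∀ ψ : ↥(latNew M), κ ψ = 0 → ∃ ψ' : ↥(latNew M), ψ = p ^ (k + 1) • ψ') ∧
      ∀ (i : Nat.Primes) (ψ : ↥(latNew M)),
        κ (latNewEval M S h2 (MvPolynomial.X i) ψ) = esJOp M S i (κ ψ) := by
  obtain ⟨κ, hκ1, hκ2, hκ3, hκ4⟩ := h4 (p ^ (k + 1)) (pow_pos hp (k + 1))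
  refine ⟨κ.comp (latNew M).subtype.toAddMonoidHom, ?_, ?_, ?_, ?_⟩
  · intro ψ
    refine ⟨⟨k + 1, hκ1 ψ⟩, fun t ht => ?_⟩
    obtain ⟨ψ', hψ', e⟩ := exists_latNew_of_word M S h2 κ hκ3 t ht (ψ : S31Lat M) ψ.2
    show IsNewClass M (t (κ (ψ : S31Lat M)))
    rw [e]
    exact hκ4 ψ' ((mem_latNew M).mp hψ')
  · intro ψ
    exact hκ1 ψ
  · intro ψ hψ
    obtain ⟨ψ', hψ'⟩ := hκ2 (ψ : S31Lat M) hψ
    have hnew : ψ' ∈ latNew M := by
      rw [mem_latNew]
      refine IsNewCoh.of_nsmul M (pow_pos hp (k + 1)).ne' ?_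
      have := (mem_latNew M).mp ψ.2
      rw [hψ'] at this
      exact this
    exact ⟨⟨ψ', hnew⟩, Subtype.ext hψ'⟩
  · rintro ⟨ℓ, hℓ⟩ ψ
    show κ (s31LatEval M S (heckeGen ⟨ℓ, hℓ⟩) (ψ : S31Lat M)) = esJOp M S ⟨ℓ, hℓ⟩ (κ ψ)
    rw [s31LatEval_heckeGen]
    by_cases h : ¬ ℓ ∣ M ∧ ℓ ∉ (↑S : Set ℕ)
    · rw [esJOp_of_good M S hℓ h.1 h.2]
      exact hκ3 ℓ hℓ h.1 (ψ : S31Lat M) _ (s31LatOp_of_good M S hℓ h.1 h.2 ψ)
    · rw [esJOp_of_not_good M S hℓ h, s31LatOp_of_not_good M S hℓ h,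
        AddMonoidHom.zero_apply, LinearMap.zero_apply, map_zero]

end Kummer

end Fermat.Agent.H52.SS
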