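import Fermat.Agent.H52.SS.Wired
import Fermat.Agent.H24.SS2.Bridge
import Fermat.Agent.H82.SS.Points
import Fermat.Agent.H8.SS.Cross9Data

/-!
# P-SS / P-SS2: S35 and S36 from the function-field contracts alone (helper52)

The whole `J`-side is unconditional (rows SS2-J1 .. SS2-J7: helper51, helper85, helper94,
helper34, helper26, helper33, helper35, helper77, helper24, helper84, helper42, helper93), and so
is the geometric target of S34 (helper82's assembly `unipotentTorsionAux_of_ssPoints` on the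
three point statements of helper41, helper8, helper67).  Hence:

* `unipotentTorsionAuxFinal` : `Fermat.Agent.H71.SS.UnipotentTorsionAuxStatement`;
* `newformLattice_of_ktFF`, `s35_of_ktFF` : **S35** from (KT-FF) at the auxiliary levels
  (`KTFFAuxStatement`);
* `carayolLattice_of_kcFF` : the lattice statement of **S36** from (KC-FF) at the auxiliary
  levels (`KCFFAuxStatement`); then `Fermat.Agent.H52.s36_of_lattice` is the frozen S36.
-/

set_option autoImplicit false

noncomputable section

namespace Fermat.Agent.H52.SS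

open Polynomial

/-- The geometric target of S34 at the auxiliary levels, unconditional. -/
theorem unipotentTorsionAuxFinal : Fermat.Agent.H71.SS.UnipotentTorsionAuxStatement :=
  Fermat.Agent.H82.SS.unipotentTorsionAux_of_ssPoints
    (Fermat.Agent.H82.SS.ssPoints_of_cross
      (fun M q _ _ hq hqM h4 h9 =>
        ⟨1, Nat.one_pos, Fermat.Agent.H8.SS.ssPlaceGenCross_all M q hq hqM h4 h9 1⟩))

/-- **The newform lattice statement (S35)** from (KT-FF) at the auxiliary levels. -/
theorem newformLattice_of_ktFF (hFF : KTFFAuxStatement) :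
    Fermat.Agent.H52.NewformLatticeStatement :=
  newformLattice_of_geometry Fermat.Agent.H24.SS2.bridgeKT hFF unipotentTorsionAuxFinal

/-- **The Carayol lattice statement (S36)** from (KC-FF) at the auxiliary levels. -/
theorem carayolLattice_of_kcFF (hFF : KCFFAuxStatement) :
    Fermat.Agent.H52.CarayolLatticeStatement :=
  carayolLattice_of_geometry Fermat.Agent.H24.SS2.bridgeKC hFF

/-- **S35** (the frozen statement) from (KT-FF) at the auxiliary levels. -/
theorem s35_of_ktFF (hFF : KTFFAuxStatement)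
    {M : ℕ} [NeZero M] {g : CuspForm (CongruenceSubgroup.Gamma0 M) 2} (hg : g.IsNewform)
    (lam : ℕ) [Fact lam.Prime]
    (S : Finset ℕ)
    (O' : Type) [CommRing O'] [IsDomain O'] [IsDiscreteValuationRing O']
    [IsAdicComplete (IsLocalRing.maximalIdeal O') O'] [Finite (IsLocalRing.ResidueField O')]
    [CharZero O'] (hlamO' : (lam : O') ∈ IsLocalRing.maximalIdeal O')
    (chig : CuspForm.heckeAlgebra M 2 (↑S : Set ℕ) →+* ℂ)
    (hchig : ∀ (ℓ : ℕ) (hℓ : ℓ.Prime) (hℓM : ¬ ℓ ∣ M) (hℓS : ℓ ∉ (↑S : Set ℕ)),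
      chig (CuspForm.heckeAlgebra.T hℓ hℓM hℓS) = ModularFormClass.qCoeff g ℓ)
    (iota : chig.range →+* O')
    (hlamS : lam ∈ S) (hMS : ∀ q : ℕ, q.Prime → q ∣ M → q ∈ S) :
    ∃ (O'' : Type) (_ : CommRing O'') (_ : IsDomain O'') (_ : IsDiscreteValuationRing O'')
      (_ : IsAdicComplete (IsLocalRing.maximalIdeal O'') O'')
      (_ : Finite (IsLocalRing.ResidueField O''))
      (_ : CharZero O'') (_ : Algebra O' O'') (_ : Module.Finite O' O'')
      (_ : IsLocalHom (algebraMap O' O'')),
      Function.Injective (algebraMap O' O'') ∧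
      ∃ ρ : GaloisRepAdic O'',
        (∀ (ℓ : ℕ) (hℓ : ℓ.Prime) (hℓM : ¬ ℓ ∣ M) (hℓS : ℓ ∉ (↑S : Set ℕ)),
          ∀ A : ValuationSubring (AlgebraicClosure ℚ), A.LiesOverPrime ℓ →
            ∀ σ : AlgebraicClosure ℚ ≃ₐ[ℚ] AlgebraicClosure ℚ, A.IsFrobeniusAt σ ℓ →
              LinearMap.charpoly (ρ.ρ σ) =
                X ^ 2 - C (algebraMap O' O''
                  ((iota.comp chig.rangeRestrict) (CuspForm.heckeAlgebra.T hℓ hℓM hℓS))) * X
                  + C ((ℓ : O''))) ∧
        (∀ q : ℕ, q.Prime → q ≠ lam → q ∣ M → ¬ q ^ 2 ∣ M →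
          ∀ A : ValuationSubring (AlgebraicClosure ℚ), A.LiesOverPrime q →
            ∀ σ : AlgebraicClosure ℚ ≃ₐ[ℚ] AlgebraicClosure ℚ, A.IsFrobeniusAt σ q →
              LinearMap.charpoly (ρ.ρ σ) = X ^ 2 - C ((q : O'') + 1) * X + C ((q : O'')) ∨
              LinearMap.charpoly (ρ.ρ σ) = X ^ 2 + C ((q : O'') + 1) * X + C ((q : O''))) :=
  Fermat.Agent.H52.s35_of_lattice (newformLattice_of_ktFF hFF) hg lam S O' hlamO' chig hchig iota
    hlamS hMS

end Fermat.Agent.H52.SS
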