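import Fermat.Agent.H52.SS.Final
import Fermat.Agent.H85.J2.PushCohT
import Fermat.Agent.H34.SS2J.PeriodNewFinal
import Fermat.Agent.H33.SS2.KummerNewJ
import Fermat.Agent.H26.KumNew.PushChar
import Fermat.Agent.H77.SS2J.DegIdxMain
import Fermat.Agent.H35.KumNew.IdxConjDFinal
import Fermat.Agent.H42.SS.LevelChange
import Fermat.Agent.H84.SS2.NormLevel

/-!
# P-SS / P-SS2, `J`-side: the landed rows plugged in (helper52)

Rows SS2-J1 (helper51), SS2-J2 (helper85, helper94), SS2-J3 (helper34), SS2-J4 (helper26,
helper33, helper35, helper77), SS2-J7 (helper84, helper42, helper93) are unconditional.  What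
remains as hypotheses: the bridge (row SS2-J6) and the geometric contracts at the auxiliary
levels.

* `pushCharFinal`, `kummerNewFinal`, `levelKCFinal`, `levelKTFinal`;
* `carayolLattice_of_geometry` : (KC-FF) at the auxiliary levels gives the Carayol lattice
  statement (hence S36 by `Fermat.Agent.H52.s36_of_lattice`);
* `newformLattice_of_geometry` : (KT-FF) at the auxiliary levels and the geometric target of
  S34 give the newform lattice statement (hence S35 by `Fermat.Agent.H52.s35_of_lattice`).
-/

set_option autoImplicit false

noncomputable section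

namespace Fermat.Agent.H52.SS

/-- **(J4-C) PUSH-CHAR**, unconditional. -/
theorem pushCharFinal : PushCharStatement :=
  Fermat.Agent.H26.KumNew.pushChar_of_degIndex
    (Fermat.Agent.H26.KumNew.degIndex_of_parts Fermat.Agent.H77.degAlphaIndexStatement
      Fermat.Agent.H77.degBetaEqAlphaStatement Fermat.Agent.H35.KumNew.indexConjD)

/-- **(J4) KUM-NEW**, unconditional. -/
theorem kummerNewFinal (M : ℕ) [NeZero M] : KummerNewStatement M :=
  Fermat.Agent.H33.SS2.kummerNew_of_pushChar pushCharFinal M

/-- **(J7) LEVEL, (KC)**, unconditional. -/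
theorem levelKCFinal : LevelKCStatement :=
  Fermat.Agent.H42.SS.levelKC_of_normBaseChange Fermat.Agent.H84.SS2.normBaseChange

/-- **(J7) LEVEL, (KT)**, unconditional. -/
theorem levelKTFinal : LevelKTStatement :=
  Fermat.Agent.H42.SS.levelKT_of_normBaseChange Fermat.Agent.H84.SS2.normBaseChange

/-- **The Carayol lattice statement (S36)** from the bridge and (KC-FF) at the auxiliary
levels. -/
theorem carayolLattice_of_geometry (hB : BridgeKCStatement) (hFF : KCFFAuxStatement) :
    Fermat.Agent.H52.CarayolLatticeStatement :=
  carayolLattice_of_rows Fermat.Agent.H85.J2.pushCohT Fermat.Agent.H34.SS2J.periodNewFinal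
    (fun M _ => kummerNewFinal M) hB levelKCFinal hFF

/-- **The newform lattice statement (S35)** from the bridge, (KT-FF) at the auxiliary levels and
the geometric target of S34. -/
theorem newformLattice_of_geometry (hB : BridgeKTStatement) (hFF : KTFFAuxStatement)
    (hAux : Fermat.Agent.H71.SS.UnipotentTorsionAuxStatement) :
    Fermat.Agent.H52.NewformLatticeStatement :=
  newformLattice_of_rows Fermat.Agent.H85.J2.pushCohT Fermat.Agent.H34.SS2J.periodNewFinal
    (fun M _ => kummerNewFinal M) hB levelKTFinal hFF hAux

end Fermat.Agent.H52.SS
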